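import Fermat.Agent.S36.T.DetTrick

/-!
# RT-K8, algebra part 2: the dual determinant trick (Mathlib only)

`R` a commutative ring, `X` a finite `R`-module killed by `pⁿ`, `K` an ideal of `R`, `C : R`.

* `rtk8_det_trick` : if `M` is generated by `m i` (`i ∈ ι`, finite) and `C • m i ∈ K • M`, then
  `C ^ |ι| + a` kills `M` for some `a ∈ K`.
* `rtk8_dual_det` : if `C` kills `X[K] = {x : ∀ h ∈ K, h • x = 0}`, then `C ^ r + a` kills `X`
  for some `a ∈ K` and some `r ≤ |X[p]|`.

Proof of the second statement: on the Pontryagin dual `Y = Hom(X, ℂˣ)` (with the transposed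
action) the double annihilator theorem gives `C • Y ⊆ K • Y`; `Y` is generated by representatives
of `Y / p Y`, and `|Y / p Y| = |Y[p]| ≤ |X / p X| = |X[p]|`.
-/

set_option autoImplicit false
set_option linter.style.haveILetI false

universe u v

namespace Fermat.Agent.RT.K8

open Fermat.Agent.S36

section Det

/-- **the determinant trick with an ideal.** -/
theorem rtk8_det_trick {R M : Type*} [CommRing R] [AddCommGroup M] [Module R M]
    {ι : Type*} [Fintype ι] [DecidableEq ι] (m : ι → M)
    (hm : Submodule.span R (Set.range m) = ⊤) (K : Ideal R) (C : R)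
    (hC : ∀ i : ι, C • m i ∈ K • (⊤ : Submodule R M)) :
    ∃ a ∈ K, ∀ x : M, (C ^ Fintype.card ι + a) • x = 0 := by
  classical
  have hex : ∀ i : ι, ∃ c : ι → R, (∀ j, c j ∈ K) ∧ ∑ j, c j • m j = C • m i := by
    intro i
    have h1 := hC i
    rw [← hm, Submodule.mem_ideal_smul_span_iff_exists_sum] at h1
    obtain ⟨c, hc, hsum⟩ := h1
    refine ⟨fun j => c j, hc, ?_⟩
    rw [← hsum, Finsupp.sum_fintype]
    intro j
    exact zero_smul _ _
  choose A hA hAeq using hex
  set Nmat : Matrix ι ι R := fun i j => (if i = j then C else 0) - A i j with hN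
  refine ⟨Nmat.det - C ^ Fintype.card ι, ?_, ?_⟩
  · rw [← Ideal.Quotient.eq_zero_iff_mem, map_sub, map_pow, RingHom.map_det]
    have h2 : (Ideal.Quotient.mk K).mapMatrix Nmat =
        (Ideal.Quotient.mk K C) • (1 : Matrix ι ι (R ⧸ K)) := by
      ext i j
      rw [RingHom.mapMatrix_apply, Matrix.map_apply, Matrix.smul_apply, Matrix.one_apply,
        smul_eq_mul]
      show Ideal.Quotient.mk K ((if i = j then C else 0) - A i j) = _
      rw [map_sub, Ideal.Quotient.eq_zero_iff_mem.mpr (hA i j), sub_zero]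
      split_ifs
      · rw [mul_one]
      · rw [map_zero, mul_zero]
    rw [h2, Matrix.det_smul, Matrix.det_one, mul_one, sub_self]
  · have hrow : ∀ i : ι, ∑ j, Nmat i j • m j = 0 := by
      intro i
      have e : ∀ j, Nmat i j • m j = (if i = j then C • m j else 0) - A i j • m j := by
        intro j
        show ((if i = j then C else 0) - A i j) • m j = _
        rw [sub_smul]
        congr 1
        split_ifs
        · rfl
        · rw [zero_smul]
      simp only [e]
      rw [Finset.sum_sub_distrib, Finset.sum_ite_eq, if_pos (Finset.mem_univ i), hAeq i,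
        sub_self]
    have hkill : ∀ k : ι, Nmat.det • m k = 0 := by
      intro k
      have hadj : ∀ j, ∑ i, Nmat.adjugate k i * Nmat i j = if k = j then Nmat.det else 0 := by
        intro j
        have := congrFun (congrFun (Matrix.adjugate_mul Nmat) k) j
        rw [Matrix.mul_apply, Matrix.smul_apply, Matrix.one_apply, smul_eq_mul] at this
        rw [this]
        split_ifs <;> simp
      have e1 : Nmat.det • m k = ∑ j, (∑ i, Nmat.adjugate k i * Nmat i j) • m j := by
        simp only [hadj]
        rw [Finset.sum_eq_single k]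
        · rw [if_pos rfl]
        · intro j _ hjk
          rw [if_neg (Ne.symm hjk), zero_smul]
        · intro h
          exact absurd (Finset.mem_univ k) h
      rw [e1]
      have e2 : ∀ j, (∑ i, Nmat.adjugate k i * Nmat i j) • m j =
          ∑ i, Nmat.adjugate k i • (Nmat i j • m j) := by
        intro j
        rw [Finset.sum_smul]
        refine Finset.sum_congr rfl fun i _ => ?_
        rw [mul_smul]
      simp only [e2]
      rw [Finset.sum_comm]
      refine Finset.sum_eq_zero fun i _ => ?_
      rw [← Finset.smul_sum, hrow i, smul_zero]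
    intro x
    have hx : x ∈ Submodule.span R (Set.range m) := by rw [hm]; exact Submodule.mem_top
    have e : C ^ Fintype.card ι + (Nmat.det - C ^ Fintype.card ι) = Nmat.det := by ring
    rw [e]
    refine Submodule.span_induction (p := fun x _ => Nmat.det • x = 0) ?_ ?_ ?_ ?_ hx
    · rintro _ ⟨k, rfl⟩
      exact hkill k
    · exact smul_zero _
    · intro x y _ _ hx hy
      rw [smul_add, hx, hy, add_zero]
    · intro c x _ hx
      rw [smul_comm, hx, smul_zero]

end Det

section Dual

variable (R X : Type*) [CommRing R] [AddCommGroup X] [Module R X]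

/-- the transposed action of `R` on the characters of `X` -/
@[reducible] noncomputable def rtk8DualModule : Module R (AddChar X ℂ) where
  smul h ψ := ψ.compAddMonoidHom (DistribSMul.toAddMonoidHom X h)
  one_smul ψ := by
    apply DFunLike.ext
    intro x
    show ψ ((1 : R) • x) = ψ x
    rw [one_smul]
  mul_smul h h' ψ := by
    apply DFunLike.ext
    intro x
    show ψ ((h * h') • x) = ψ (h' • h • x)
    rw [mul_comm, mul_smul]
  smul_zero h := by
    apply DFunLike.ext
    intro x
    rfl
  smul_add h ψ φ := by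
    apply DFunLike.ext
    intro x
    rfl
  add_smul h h' ψ := by
    apply DFunLike.ext
    intro x
    show ψ ((h + h') • x) = ψ (h • x) * ψ (h' • x)
    rw [add_smul, AddChar.map_add_eq_mul]
  zero_smul ψ := by
    apply DFunLike.ext
    intro x
    show ψ ((0 : R) • x) = 1
    rw [zero_smul, AddChar.map_zero_eq_one]

end Dual

section Main

variable {R : Type u} {X : Type v} [CommRing R] [AddCommGroup X] [Module R X]

theorem rtk8_dual_smul_apply (h : R) (ψ : AddChar X ℂ) (x : X) :
    (letI := rtk8DualModule R X; h • ψ) x = ψ (h • x) := rfl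

/-- `|Y[p]| ≤ |X / p X|` for the dual `Y` of a finite abelian group `X` -/
theorem rtk8_card_dual_ker_le [Finite X] (p : ℕ) :
    Nat.card (nsmulAddMonoidHom (α := AddChar X ℂ) p).ker ≤
      Nat.card (X ⧸ (nsmulAddMonoidHom (α := X) p).range) := by
  classical
  set H : AddSubgroup X := (nsmulAddMonoidHom (α := X) p).range with hH
  haveI : Fintype (X ⧸ H) := Fintype.ofFinite _
  have hc : Nat.card (AddChar (X ⧸ H) ℂ) = Nat.card (X ⧸ H) := by
    haveI : Fintype (AddChar (X ⧸ H) ℂ) := Fintype.ofFinite _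
    rw [Nat.card_eq_fintype_card, Nat.card_eq_fintype_card]
    convert AddChar.card_eq (α := X ⧸ H)
  rw [← hc]
  have hker : ∀ ψ : (nsmulAddMonoidHom (α := AddChar X ℂ) p).ker, ∀ x ∈ H,
      (ψ : AddChar X ℂ).toAddMonoidHom x = 0 := by
    rintro ⟨ψ, hψ⟩ _ ⟨x, rfl⟩
    have h1 : p • ψ = 0 := hψ
    have h2 := congrArg (fun φ : AddChar X ℂ => φ x) h1
    simp only [AddChar.nsmul_apply, AddChar.zero_apply] at h2
    show Additive.ofMul (ψ (p • x)) = 0
    rw [AddChar.map_nsmul_eq_pow, h2]
    rfl
  let F : (nsmulAddMonoidHom (α := AddChar X ℂ) p).ker → AddChar (X ⧸ H) ℂ := fun ψ =>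
    AddChar.toAddMonoidHomEquiv.symm
      (QuotientAddGroup.lift H (ψ : AddChar X ℂ).toAddMonoidHom (hker ψ))
  apply Nat.card_le_card_of_injective F
  intro ψ ψ' hψ
  apply Subtype.ext
  apply DFunLike.ext
  intro x
  have := congrArg (fun φ : AddChar (X ⧸ H) ℂ => φ (QuotientAddGroup.mk x)) hψ
  exact this

/-- the dual of a finite abelian group killed by `pⁿ` is generated by at most `|X[p]|`
elements -/
theorem rtk8_dual_generators [Finite X] (p n : ℕ) (hX : ∀ x : X, p ^ n • x = 0) :
    ∃ (ι : Type v) (_ : Fintype ι) (m : ι → AddChar X ℂ),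
      Fintype.card ι ≤ Nat.card (nsmulAddMonoidHom (α := X) p).ker ∧
      AddSubgroup.closure (Set.range m) = ⊤ := by
  classical
  set u : AddChar X ℂ →+ AddChar X ℂ := nsmulAddMonoidHom p with hu
  haveI : Fintype (AddChar X ℂ ⧸ u.range) := Fintype.ofFinite _
  refine ⟨AddChar X ℂ ⧸ u.range, inferInstance, fun q => Quotient.out q, ?_, ?_⟩
  · rw [← Nat.card_eq_fintype_card, s36t_card_quot_range u]
    refine (rtk8_card_dual_ker_le p).trans ?_
    rw [s36t_card_quot_range (nsmulAddMonoidHom (α := X) p)]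
  · apply s36t_closure_eq_top p n
    · intro ψ
      apply DFunLike.ext
      intro x
      rw [AddChar.nsmul_apply, ← AddChar.map_nsmul_eq_pow, hX, AddChar.map_zero_eq_one]
      rfl
    · intro ψ
      refine ⟨Quotient.out (QuotientAddGroup.mk ψ : AddChar X ℂ ⧸ u.range), ⟨_, rfl⟩, ?_⟩
      have h1 : (QuotientAddGroup.mk (Quotient.out (QuotientAddGroup.mk ψ :
          AddChar X ℂ ⧸ u.range)) : AddChar X ℂ ⧸ u.range) = QuotientAddGroup.mk ψ :=
        QuotientAddGroup.out_eq' _
      rw [QuotientAddGroup.eq] at h1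
      obtain ⟨z, hz⟩ := h1
      refine ⟨z, ?_⟩
      have hz' : p • z = -Quotient.out (QuotientAddGroup.mk ψ : AddChar X ℂ ⧸ u.range) + ψ := hz
      rw [hz']
      abel

/-- **the double annihilator**: if `C` kills `X[K]` then `C • Y ⊆ K • Y` -/
theorem rtk8_dual_smul_mem [Finite X] (K : Ideal R) (C : R)
    (hC : ∀ x : X, (∀ h ∈ K, h • x = 0) → C • x = 0) (ψ : AddChar X ℂ) :
    letI := rtk8DualModule R X
    C • ψ ∈ K • (⊤ : Submodule R (AddChar X ℂ)) := by
  letI := rtk8DualModule R X
  classical
  by_contra hcon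
  set H : Submodule R (AddChar X ℂ) := K • ⊤ with hH
  have hne : (H.mkQ (C • ψ)) ≠ 0 := by
    intro h0
    exact hcon ((Submodule.Quotient.mk_eq_zero H).mp h0)
  obtain ⟨θ, hθ⟩ := AddChar.exists_apply_ne_zero.mpr hne
  set Θ : AddChar (AddChar X ℂ) ℂ := θ.compAddMonoidHom H.mkQ.toAddMonoidHom with hΘ
  obtain ⟨x, hx⟩ := (AddChar.doubleDualEmb_bijective (α := X)).2 Θ
  have hxΘ : ∀ φ : AddChar X ℂ, φ x = Θ φ := by
    intro φ
    rw [← hx]
    rfl
  have hxK : ∀ h ∈ K, h • x = 0 := by
    intro h hh
    rw [← AddChar.forall_apply_eq_zero]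
    intro φ
    have h1 : φ (h • x) = (h • φ) x := rfl
    rw [h1, hxΘ]
    have h2 : h • φ ∈ H := Submodule.smul_mem_smul hh Submodule.mem_top
    show θ (H.mkQ (h • φ)) = 1
    rw [Submodule.mkQ_apply, (Submodule.Quotient.mk_eq_zero H).mpr h2, AddChar.map_zero_eq_one]
  have h3 : Θ (C • ψ) = 1 := by
    rw [← hxΘ]
    show ψ (C • x) = 1
    rw [hC x hxK, AddChar.map_zero_eq_one]
  exact hθ h3

/-- **the dual determinant trick.** -/
theorem rtk8_dual_det [Finite X] (p n : ℕ) (hX : ∀ x : X, p ^ n • x = 0) (K : Ideal R) (C : R)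
    (hC : ∀ x : X, (∀ h ∈ K, h • x = 0) → C • x = 0) :
    ∃ r ≤ Nat.card (nsmulAddMonoidHom (α := X) p).ker, ∃ a ∈ K,
      ∀ x : X, (C ^ r + a) • x = 0 := by
  letI := rtk8DualModule R X
  classical
  obtain ⟨ι, _, m, hcard, hgen⟩ := rtk8_dual_generators (X := X) p n hX
  have hspan : Submodule.span R (Set.range m) = ⊤ := by
    rw [eq_top_iff]
    intro ψ _
    have h1 : ψ ∈ AddSubgroup.closure (Set.range m) := by rw [hgen]; exact AddSubgroup.mem_top _
    have h2 : AddSubgroup.closure (Set.range m) ≤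
        (Submodule.span R (Set.range m)).toAddSubgroup :=
      (AddSubgroup.closure_le _).mpr Submodule.subset_span
    exact h2 h1
  obtain ⟨a, ha, hkill⟩ := rtk8_det_trick m hspan K C
    (fun i => rtk8_dual_smul_mem K C hC (m i))
  refine ⟨Fintype.card ι, hcard, a, ha, fun x => ?_⟩
  rw [← AddChar.forall_apply_eq_zero]
  intro φ
  have h1 : φ ((C ^ Fintype.card ι + a) • x) = ((C ^ Fintype.card ι + a) • φ) x := rfl
  rw [h1, hkill φ]
  rfl

end Main

end Fermat.Agent.RT.K8
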