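import Fermat.Agent.RT.K8.KTors
import Fermat.Agent.RT.K8.DualDet

/-!
# RT-K8: proof of the abstract theorem `StmtK8Abs`

See `Fermat/Agent/RT/K8/Plan.lean` for the statement and NOTES/RT-K8.md for the proof:

* (a) `t (g σ) = t g` for all `g` ⇒ `(σ - 1) P' = 0` on `Z = J[pⁿ][𝔎]` (Lemma A), where `P'`
  represents `t (g₁ g₂ g₃) - t (g₂ g₁ g₃)`;
* (b) the geometric clause ⇒ `φ² = q²` on `C₀ P' Z`;
* (c) Lemma B ⇒ `C := (q² - 1) P' C₀ P'` kills `Z`;
* (d) the dual determinant trick ⇒ `C ^ r + a` kills `J[pⁿ]` with `χ(a) ∈ 𝔪ᵏ`, `r ≤ |J[p]|`;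
  faithfulness ⇒ `χ(C) ^ r ∈ 𝔪ᵏ` for all `k`: contradiction.
-/

set_option autoImplicit false
set_option linter.style.haveILetI false

namespace Fermat.Agent.RT.K8

open ModularCurve Fermat.Agent.ES Fermat.Agent.S31 Fermat.Agent.S32 Fermat.Agent.S30

/-- the kernel of multiplication by `p` on `J[pⁿ]` has at most `|J[p]|` elements -/
theorem rtk8_card_ker_le {J : Type} [AddCommGroup J] [Module HeckeAlg J]
    [DistribMulAction GQ J] (p n : ℕ)
    [Finite ↥(tors J p 1)] :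
    Nat.card (nsmulAddMonoidHom (α := ↥(tors J p n)) p).ker ≤ Nat.card ↥(tors J p 1) := by
  have hmem : ∀ x : (nsmulAddMonoidHom (α := ↥(tors J p n)) p).ker,
      ((x : ↥(tors J p n)) : J) ∈ tors J p 1 := by
    rintro ⟨x, hx⟩
    have h1 : p • x = 0 := hx
    have := congrArg (fun w : ↥(tors J p n) => (w : J)) h1
    rw [mem_tors, pow_one]
    simpa using this
  exact Nat.card_le_card_of_injective
    (fun x => (⟨((x : ↥(tors J p n)) : J), hmem x⟩ : ↥(tors J p 1)))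
    (fun x y hxy => Subtype.ext (Subtype.ext
      (congrArg (fun w : ↥(tors J p 1) => (w : J)) hxy)))

/-- **K8**, abstract form. -/
theorem stmtK8Abs : StmtK8Abs := by
  intro p N _ _ J _ _ _ S 𝒪' _ _ _ _ _ χ hpI hcheb hJ hfaith hgoodN hgood t ht hU q hq hqp A hA
    φ hφ hG
  obtain ⟨g₁, g₂, g₃, hne⟩ := hU
  obtain ⟨C₀, hC₀, hχC₀, hgeo⟩ := hG
  classical
  by_contra hcon
  have hun : ∀ σ ∈ A.inertiaSubgroupIn ℚ, ∀ g, t (g * σ) = t g := by
    intro σ hσ g
    by_contra h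
    exact hcon ⟨σ, hσ, g, h⟩
  have hp : p.Prime := Fact.out
  have hfin : ∀ n : ℕ, Finite ↥(tors J p n) := fun n => (hJ.finite n).to_subtype
  haveI := hfin 1
  set s₁ : ℕ := Nat.card ↥(tors J p 1) with hs₁
  set Sg : Set Nat.Primes := outsideVars (↑S : Set ℕ) with hSg
  -- the nonzero element `z`
  set d : 𝒪' := t (g₁ * g₂ * g₃) - t (g₂ * g₁ * g₃) with hd
  have hd0 : d ≠ 0 := sub_ne_zero.mpr hne
  have hq1 : ((q : 𝒪') ^ 2 - 1) ≠ 0 := by
    intro h0
    have h1 : ((q ^ 2 : ℕ) : 𝒪') = ((1 : ℕ) : 𝒪') := by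
      push_cast
      exact sub_eq_zero.mp h0
    have h2 : q ^ 2 = 1 := Nat.cast_injective h1
    have h3 : 1 < q ^ 2 := Nat.one_lt_pow (by norm_num) hq.one_lt
    omega
  set z : 𝒪' := ((q : 𝒪') ^ 2 - 1) * d * (chiHom S χ C₀ * d) with hz
  have hz0 : z ^ s₁ ≠ 0 :=
    pow_ne_zero _ (mul_ne_zero (mul_ne_zero hq1 hd0) (mul_ne_zero hχC₀ hd0))
  obtain ⟨k, hzk⟩ : ∃ k : ℕ, z ^ s₁ ∉ IsLocalRing.maximalIdeal 𝒪' ^ k := by
    by_contra h
    have h : ∀ k : ℕ, z ^ s₁ ∈ IsLocalRing.maximalIdeal 𝒪' ^ k := by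
      intro k
      by_contra hk
      exact h ⟨k, hk⟩
    apply hz0
    have h1 : z ^ s₁ ∈ ⨅ i : ℕ, IsLocalRing.maximalIdeal 𝒪' ^ i := by
      rw [Ideal.mem_iInf]; exact h
    rw [Ideal.iInf_pow_eq_bot_of_isLocalRing _ (Ideal.IsMaximal.ne_top inferInstance)] at h1
    exact h1
  obtain ⟨n, -, hGood⟩ := exists_good (J := J) S χ hfaith hgoodN hgood k
  haveI := hfin n
  set I : Ideal 𝒪' := IsLocalRing.maximalIdeal 𝒪' ^ k with hI
  -- representatives
  choose P hPsupp hPapprox using fun g : GQ => exists_approx hcheb hJ S hgood n g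
  have htr : ∀ g, t g - chiHom S χ (P g) ∈ I := fun g =>
    ht g k n (P g) hGood (hPsupp g) (hPapprox g)
  set P' : HeckeAlg := P (g₁ * g₂ * g₃) - P (g₂ * g₁ * g₃) with hP'
  have hP'supp : P' ∈ MvPolynomial.supported ℤ Sg := sub_mem (hPsupp _) (hPsupp _)
  have hχP' : chiHom S χ P' - d ∈ I := by
    have e : chiHom S χ P' - d = (t (g₂ * g₁ * g₃) - chiHom S χ (P (g₂ * g₁ * g₃))) -
        (t (g₁ * g₂ * g₃) - chiHom S χ (P (g₁ * g₂ * g₃))) := by
      rw [hP', hd, map_sub]; ring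
    rw [e]
    exact sub_mem (htr _) (htr _)
  -- the quadratic relation on `Z`
  have hQR := kTors_quadRel (S := S) (χ := χ) (I := I) hJ.smul_comm P hPapprox
  -- (a) inertia acts trivially on `P' Z`
  have hA1 : ∀ σ ∈ A.inertiaSubgroupIn ℚ, ∀ x : J, x ∈ kTors p J n S χ I →
      σ • (P' • x) = P' • x := by
    intro σ hσ x hx
    have hσ1 : ((cycE p n σ : ℕ) : Module.End ℤ ↥(kTors p J n S χ I)) = 1 := by
      rw [kTors_natCast_eq (cycE_of_eq_one p n σ (padicCyclo_inertia p q hq hqp A hA σ hσ)),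
        Nat.cast_one]
    have hunE : ∀ g, kHecke p J n S χ I (P (g * σ)) = kHecke p J n S χ I (P g) := by
      intro g
      apply kHecke_eq_of_sub_mem (hPsupp _) (hPsupp _)
      have e : chiHom S χ (P (g * σ)) - chiHom S χ (P g) =
          (t g - chiHom S χ (P g)) - (t (g * σ) - chiHom S χ (P (g * σ))) := by
        rw [hun σ hσ g]; ring
      rw [e]
      exact sub_mem (htr _) (htr _)
    have h1 := rtk8_unram hQR hσ1 hunE g₁ g₂ g₃
    have h2 := congrArg (fun f : Module.End ℤ ↥(kTors p J n S χ I) =>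
      ((f ⟨x, hx⟩ : ↥(kTors p J n S χ I)) : J)) h1
    simp only [← map_sub, Module.End.mul_apply, LinearMap.sub_apply, Module.End.one_apply,
      LinearMap.zero_apply, ZeroMemClass.coe_zero, AddSubgroupClass.coe_sub, kGal_apply,
      kHecke_apply] at h2
    rw [← hP'] at h2
    exact sub_eq_zero.mp h2
  -- (b) `φ² = q²` on `C₀ P' Z`
  have hB1 : ∀ x : J, x ∈ kTors p J n S χ I →
      (φ * φ) • ((C₀ * P') • x) = (q ^ 2) • ((C₀ * P') • x) := by
    intro x hx
    rw [mul_smul C₀ P' x]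
    apply hgeo
    · exact ⟨n, torsion_hecke n P' hx.1⟩
    · intro σ hσ
      exact hA1 σ hσ x hx
  -- (c) `C` kills `Z`
  set C : HeckeAlg := ((q : HeckeAlg) ^ 2 - 1) * P' * (C₀ * P') with hC
  have hCsupp : C ∈ MvPolynomial.supported ℤ Sg :=
    mul_mem (mul_mem (sub_mem (pow_mem (natCast_mem _ q) 2) (one_mem _)) hP'supp)
      (mul_mem hC₀ hP'supp)
  have hC1 : ∀ x : J, x ∈ kTors p J n S χ I → C • x = 0 := by
    intro x hx
    have hΦe : cycE p n (φ * φ) ≡ q ^ 2 [MOD p ^ n] := by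
      have h1 : cycE p n φ ≡ q [MOD p ^ n] := by
        rw [cycE_modEq_iff, padicCyclo_frob p q hq hqp A hA φ hφ, map_natCast]
      have h2 := (cycE_mul p n φ φ).trans (Nat.ModEq.mul h1 h1)
      rw [pow_two]
      exact h2
    have he : ∀ g, kHecke p J n S χ I (C₀ * P') * kGal p J n S χ I hJ.smul_comm g =
        kGal p J n S χ I hJ.smul_comm g * kHecke p J n S χ I (C₀ * P') := by
      intro g
      ext y
      simp only [Module.End.mul_apply, kHecke_apply, kGal_apply]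
      exact (hJ.smul_comm g _ _).symm
    have hΦ : kGal p J n S χ I hJ.smul_comm (φ * φ) * kHecke p J n S χ I (C₀ * P') =
        ((cycE p n (φ * φ) : ℕ) : Module.End ℤ ↥(kTors p J n S χ I)) *
          kHecke p J n S χ I (C₀ * P') := by
      rw [kTors_natCast_eq hΦe]
      ext y
      simp only [Module.End.mul_apply, kHecke_apply, kGal_apply, Module.End.natCast_apply,
        Submodule.coe_smul_of_tower]
      exact hB1 (y : J) y.2
    have h1 := rtk8_scalar hQR he hΦ g₁ g₂ g₃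
    rw [kTors_natCast_eq hΦe] at h1
    have h2 := congrArg (fun f : Module.End ℤ ↥(kTors p J n S χ I) =>
      ((f ⟨x, hx⟩ : ↥(kTors p J n S χ I)) : J)) h1
    simp only [← map_sub, Module.End.mul_apply, LinearMap.sub_apply, Module.End.one_apply,
      LinearMap.zero_apply, ZeroMemClass.coe_zero, AddSubgroupClass.coe_sub, kHecke_apply,
      Module.End.natCast_apply, Submodule.coe_smul_of_tower] at h2
    rw [← hP'] at h2
    rw [hC, mul_smul, mul_smul, sub_smul, one_smul, ← Nat.cast_pow, Nat.cast_smul_eq_nsmul]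
    exact h2
  -- (d) the dual determinant trick
  set R := ↥(MvPolynomial.supported ℤ Sg) with hR
  set f : R →+* 𝒪' := (chiHom S χ).comp (MvPolynomial.supported ℤ Sg).val.toRingHom with hf
  set K : Ideal R := Ideal.comap f I with hK
  have hX : ∀ x : ↥(tors J p n), p ^ n • x = 0 := fun x => pow_smul_tors x
  have hCX : ∀ x : ↥(tors J p n), (∀ h ∈ K, h • x = 0) → (⟨C, hCsupp⟩ : R) • x = 0 := by
    intro x hx
    apply Subtype.ext
    show C • (x : J) = 0
    apply hC1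
    refine ⟨x.2, fun h hh hhI => ?_⟩
    have h1 : (⟨h, hh⟩ : R) ∈ K := hhI
    have h2 := congrArg (fun w : ↥(tors J p n) => (w : J)) (hx _ h1)
    exact h2
  obtain ⟨r, hr, a, ha, hkill⟩ := rtk8_dual_det p n hX K (⟨C, hCsupp⟩ : R) hCX
  have hr' : r ≤ s₁ := hr.trans (rtk8_card_ker_le p n)
  -- faithfulness
  have hkill' : ∀ x : J, p ^ n • x = 0 → ((C ^ r + (a : HeckeAlg)) : HeckeAlg) • x = 0 := by
    intro x hx
    have := congrArg (fun w : ↥(tors J p n) => (w : J)) (hkill ⟨x, hx⟩)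
    exact this
  have hmem := span_pow_le (IsLocalRing.maximalIdeal 𝒪') hpI k
    (hGood (C ^ r + (a : HeckeAlg)) (add_mem (pow_mem hCsupp r) a.2) hkill')
  have haI : chiHom S χ (a : HeckeAlg) ∈ I := ha
  have hCr : chiHom S χ C ^ r ∈ I := by
    rw [map_add, map_pow] at hmem
    have := sub_mem hmem haI
    rwa [add_sub_cancel_right] at this
  -- `χ(C) ≡ z`
  have hCz : chiHom S χ C - z ∈ I := by
    rw [← Ideal.Quotient.eq] at hχP' ⊢
    rw [hC, hz]
    simp only [map_mul, map_sub, map_pow, map_natCast, map_one, hχP']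
  have hzr : z ^ r ∈ I := by
    have h1 : chiHom S χ C ^ r - z ^ r ∈ I :=
      I.mem_of_dvd (sub_dvd_pow_sub_pow _ _ r) hCz
    have := sub_mem hCr h1
    rwa [sub_sub_cancel] at this
  apply hzk
  obtain ⟨e, he⟩ := Nat.exists_eq_add_of_le hr'
  rw [he, pow_add]
  exact Ideal.mul_mem_right _ _ hzr

end Fermat.Agent.RT.K8
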