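/-
RT-K8 (helper21): the GEOMETRIC CLAUSE (G) of K8 = Mazur's principle at the exponents `p ^ n`.
INTERFACE (definitions and statements only; the algebra is in `RT/K8/GeoAlg.lean`).

Setting of `RIB/MP/Plan.lean`: `N = M₁ q`, `q ∤ M₁` an odd prime, `p ≥ 5` a prime `≠ q`,
`A ⊂ ℚ̄` a valuation ring over `q`, `σ` a Frobenius element at `A`, `w = w_q`.
All the statements carry the hypothesis `5 ≤ q ∨ (5 - q) ∣ M₁` of `RIB/MP/PlanE.lean`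
(for `q = 3` the level `M₁` is even), under which the reduction package of `X₀(M₁)` exists.

* `StmtRedPow`       : `RIB.MP.StmtRed` for the exponents `p ^ n` (all `n`);
* `StmtFrobToricPow` : `RIB.MP.StmtFrobToric` for the exponents `p ^ n` (all `n`);
* `StmtGeoJ`         : the `J`-form of (G): for an inertia-fixed `x ∈ PDiv (M₁ q) p`, a Hecke
  polynomial `t₀` in the good variables which vanishes on `S₂(Γ₀(M₁))` and a prime `ℓ ∤ M₁ q p`,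
  `z = t₀ (T_ℓ − ℓ − 1) x` satisfies `σ² z = q² z`.

`stmtGeoJ_of : StmtRedPow → StmtFrobToricPow → StmtGeoJ` is proved in `RT/K8/GeoAlg.lean`
(MP-HK, MP-W, PKG-OLD, MP-DIV are landed and used there).
-/
import Fermat.Agent.RIB.MP.Plan
import Fermat.Agent.ES.TopFaith

set_option autoImplicit false

noncomputable section

namespace Fermat.Agent.RT.K8

open ModularCurve AlgebraicCurve Fermat.Agent.ES Fermat.Agent.ES.G2 Fermat.Agent.RIB.MP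

/-- **MP-RED at the exponents `p ^ n`.**  For an inertia-fixed `x ∈ J₀(M₁ q)[p ^ n]` the
reductions of `T_ℓ x − (ℓ+1) x` at `v_∞` and at `v_0` are reductions of classes of
`J₀(M₁)[p ^ n]`. -/
def StmtRedPow : Prop :=
  ∀ (M₁ q : ℕ) [NeZero M₁] [NeZero q] [NeZero (M₁ * q)] (hq : q.Prime) (hqM : ¬ q ∣ M₁),
    (5 ≤ q ∨ (5 - q) ∣ M₁) →
    q ≠ 2 → ∀ p : ℕ, p.Prime → 5 ≤ p → p ≠ q →
    ∀ A : ValuationSubring Qb, A.LiesOverPrime q →
    ∀ (n : ℕ) (x : JZero (M₁ * q)), p ^ n • x = 0 → InertiaFixed A x →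
    ∀ ℓ : Nat.Primes, ¬ (ℓ : ℕ) ∣ M₁ * q * p →
      (∃ y : JZero M₁, p ^ n • y = 0 ∧ RedInf A (p ^ n) (eisKill ℓ x) y) ∧
      (∃ y : JZero M₁, p ^ n • y = 0 ∧ RedZero hq hqM A (p ^ n) (eisKill ℓ x) y)

/-- **MP-FROB at the exponents `p ^ n`.**  For an inertia-fixed `x ∈ J₀(M₁ q)[p ^ n]`: if
`y = T_ℓ x − (ℓ+1) x` is toric then `σ (w y) + q y = 0` for every Frobenius element `σ` at
`A`. -/
def StmtFrobToricPow : Prop :=
  ∀ (M₁ q : ℕ) [NeZero M₁] [NeZero q] [NeZero (M₁ * q)] (hq : q.Prime) (hqM : ¬ q ∣ M₁),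
    (5 ≤ q ∨ (5 - q) ∣ M₁) →
    q ≠ 2 → ∀ p : ℕ, p.Prime → 5 ≤ p → p ≠ q →
    ∀ A : ValuationSubring Qb, A.LiesOverPrime q →
    ∀ σ : Qb ≃ₐ[ℚ] Qb, A.IsFrobeniusAt σ q →
    ∀ (n : ℕ) (x : JZero (M₁ * q)), p ^ n • x = 0 → InertiaFixed A x →
    ∀ ℓ : Nat.Primes, ¬ (ℓ : ℕ) ∣ M₁ * q * p →
      IsToric hq hqM A (p ^ n) (eisKill ℓ x) →
        σ • (Fermat.Agent.UNIP.atkinLehnerBar hq hqM • eisKill ℓ x) + q • eisKill ℓ x = 0

/-- **(G), `J`-form.**  On the inertia-fixed part of `PDiv (M₁ q) p` the square of a Frobenius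
element at `q` is `q²` after multiplication by `t₀ (T_ℓ − ℓ − 1)`, `t₀` a Hecke polynomial in the
good variables which vanishes on the cusp forms of level `M₁`. -/
def StmtGeoJ : Prop :=
  ∀ (M₁ q : ℕ) [NeZero M₁] [NeZero q] [NeZero (M₁ * q)], q.Prime → ¬ q ∣ M₁ →
    (5 ≤ q ∨ (5 - q) ∣ M₁) →
    q ≠ 2 → ∀ p : ℕ, p.Prime → 5 ≤ p → p ≠ q →
    ∀ A : ValuationSubring Qb, A.LiesOverPrime q →
    ∀ σ : Qb ≃ₐ[ℚ] Qb, A.IsFrobeniusAt σ q →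
    ∀ t₀ ∈ MvPolynomial.supported ℤ (goodPrimes (M₁ * q) p),
      CuspForm.heckeEvalForms M₁ 2 t₀ = 0 →
    ∀ ℓ : Nat.Primes, ¬ (ℓ : ℕ) ∣ M₁ * q * p →
    ∀ x : PDiv (M₁ * q) p, InertiaFixed A (x : JZero (M₁ * q)) →
      letI := pDivModule (M₁ * q) p
      letI := pDivGalois (M₁ * q) p
      (σ * σ) • ((t₀ * (heckeGen ℓ - (((ℓ : ℕ) : HeckeAlg) + 1))) • x) =
        (q ^ 2) • ((t₀ * (heckeGen ℓ - (((ℓ : ℕ) : HeckeAlg) + 1))) • x)

end Fermat.Agent.RT.K8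

end
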