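/-
RT-K8 (helper21), clause (G): THE CONSUMER SHAPE.

Target: `RT.Interp.StmtK8GeoE` (helper46, `RT/Interp/K8Glue.lean`) = (G) for a newform with the
hypothesis `5 ≤ q` (ruling of helper43: in `RIB.StmtTR` every odd prime of the level is trivial,
so `q ≥ 11`).

* `stmtK8GeoE_of_geoJ : StmtGeoJ → StmtK8GeoE` : `J = PDiv M p` with the Eichler–Shimura package
  (`S35.stmtESIn_proved`), `C₀ = t₀ (T_ℓ₀ − ℓ₀ − 1)`, `t₀` from `STB.stb_p1` (a Hecke polynomial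
  which vanishes on `S₂(Γ₀(M / q))` and not on the newform `g`);
* `stmtK8GeoE_of : StmtRedPow → StmtFrobToricPow → StmtK8GeoE`;
* `rtk8g_stmtTR : StmtRedPow → StmtFrobToricPow → StmtBase → RIB.StmtTR`;
* `stmtFrobToricPow_of_fac : RIB.MP.StmtFac → StmtFrobToricPow` (helper3's `ribmp_frob_powE`);
* `stmtK8GeoE_of_fac : RIB.MP.StmtFac → StmtRedPow → StmtK8GeoE`.
-/
import Fermat.Agent.RT.K8.GeoAlg
import Fermat.Agent.RT.Interp.K8Glue
import Fermat.Agent.S35.FinalInputs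
import Fermat.Agent.STB.NewPoly
import Fermat.Agent.Common.FrobExists
import Fermat.Agent.RIB.MP.FrobFinal

set_option autoImplicit false
set_option linter.unusedSectionVars false
set_option linter.style.haveILetI false

noncomputable section

namespace Fermat.Agent.RT.K8

open ModularCurve AlgebraicCurve Fermat.Agent.ES Fermat.Agent.ES.G2 Fermat.Agent.RIB.MP
  Fermat.Agent.UNIP Fermat.Agent.STB Fermat.Agent.S31 CongruenceSubgroup

/-- MP-FROB at the exponents `p ^ n` from the local factorisation (F) (helper3's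
`ribmp_frob_powE`) -/
theorem stmtFrobToricPow_of_fac (hFac : StmtFac) : StmtFrobToricPow :=
  fun M₁ q _ _ _ hq hqM hE hq2 p hp hp5 hpq A hA σ hσ n x hx hI ℓ hℓ htor =>
    ribmp_frob_powE hFac M₁ q hq hqM hE hq2 p hp hp5 hpq n A hA σ hσ x hx hI ℓ hℓ htor

/-- **(G) in the consumer shape from the `J`-form.** -/
theorem stmtK8GeoE_of_geoJ (hJ : StmtGeoJ) : Fermat.Agent.RT.Interp.StmtK8GeoE := by
  intro p _ hp5 M _ g hg q hq hqp hq2 hqM hq2M hq5 S hpS hMS ℓ₀ hℓ₀S hℓ₀g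
  have hp : p.Prime := Fact.out
  have hp0 : p ≠ 0 := hp.ne_zero
  obtain ⟨M₁, hM₁⟩ := hqM
  have hMeq : M = M₁ * q := by rw [hM₁, mul_comm]
  subst hMeq
  have hM₁0 : M₁ ≠ 0 := fun h => NeZero.ne (M₁ * q) (by rw [h, zero_mul])
  haveI : NeZero M₁ := ⟨hM₁0⟩
  haveI : NeZero q := ⟨hq.ne_zero⟩
  have hqM' : ¬ q ∣ M₁ := by
    rintro ⟨c, rfl⟩
    exact hq2M ⟨c, by ring⟩
  have hqE : 5 ≤ q ∨ (5 - q) ∣ M₁ := Or.inl hq5
  -- the Eichler–Shimura package
  obtain ⟨⟨μ, hμd⟩, hlev, hfrob, hunr'⟩ := Fermat.Agent.S35.stmtESIn_proved (M₁ * q) p hp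
  have hm := multData_of_torsionUnifData hp0 hμd
  have hJd : letI := pDivModule (M₁ * q) p; letI := pDivGalois (M₁ * q) p
      ESDataInf (M₁ * q) p (PDiv (M₁ * q) p) := hm.esDataInf hlev hfrob hunr'
  have hfaith : letI := pDivModule (M₁ * q) p; letI := pDivGalois (M₁ * q) p
      ESFaith (M₁ * q) p (PDiv (M₁ * q) p) := hm.esFaith hp0
  -- a place over `q` and a Frobenius element
  obtain ⟨A, φ, hA, hφ⟩ := Fermat.Agent.Common.exists_isFrobeniusAt q hq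
  -- the Hecke polynomial `t₀`
  have hne : M₁ ≠ M₁ * q := by
    intro h
    have h1 : M₁ * 1 = M₁ * q := by rw [mul_one]; exact h
    exact hq.one_lt.ne (Nat.eq_of_mul_eq_mul_left (Nat.pos_of_ne_zero hM₁0) h1)
  obtain ⟨t₀, ht₀, ht₀0, ht₀g⟩ := stb_p1
    (fun N p _ hp => esPkgFaith_of_inputs Fermat.Agent.INJ.injAll_stmtINJAll hp
      (torsionUnif_proved N p hp.pos))
    hg (Dvd.intro q rfl) hne S hMS
  have hgood : ∀ r : Nat.Primes, (r : ℕ) ∉ S → ¬ (r : ℕ) ∣ M₁ * q * p := by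
    intro r hrS h
    rcases (Nat.Prime.dvd_mul r.2).mp h with h | h
    · exact hrS (hMS r r.2 h)
    · rw [(Nat.prime_dvd_prime_iff_eq r.2 hp).mp h] at hrS
      exact hrS hpS
  have ht₀' : t₀ ∈ MvPolynomial.supported ℤ (goodPrimes (M₁ * q) p) :=
    MvPolynomial.supported_mono (fun r hr => hgood r hr) ht₀
  have hE : (MvPolynomial.X ℓ₀ - MvPolynomial.C (((ℓ₀ : ℕ) : ℤ) + 1) : HeckeAlg) =
      heckeGen ℓ₀ - (((ℓ₀ : ℕ) : HeckeAlg) + 1) := by
    rw [map_add, map_one, map_natCast]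
    rfl
  refine ⟨PDiv (M₁ * q) p, inferInstance, pDivModule (M₁ * q) p, pDivGalois (M₁ * q) p,
    hJd, hfaith, A, φ, hA, hφ,
    t₀ * (MvPolynomial.X ℓ₀ - MvPolynomial.C (((ℓ₀ : ℕ) : ℤ) + 1)), ?_, ?_, ?_⟩
  · refine Subalgebra.mul_mem _ ht₀ (Subalgebra.sub_mem _ ?_ ?_)
    · exact (MvPolynomial.X_mem_supported (R := ℤ)).mpr hℓ₀S
    · exact Subalgebra.algebraMap_mem _ _
  · rw [stb_p1_heckeValue_mul]
    exact mul_ne_zero ht₀g hℓ₀g
  · intro x _ hI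
    rw [hE]
    exact hJ M₁ q hq hqM' hqE hq2 p hp hp5 hqp.symm A hA φ hφ t₀ ht₀' ht₀0 ℓ₀
      (hgood ℓ₀ hℓ₀S) x (fun σ hσ => congrArg Subtype.val (hI σ hσ))

/-- **(G) in the consumer shape from MP-RED and MP-FROB at the exponents `p ^ n`.** -/
theorem stmtK8GeoE_of (hRed : StmtRedPow) (hFrob : StmtFrobToricPow) :
    Fermat.Agent.RT.Interp.StmtK8GeoE :=
  stmtK8GeoE_of_geoJ (stmtGeoJ_of hRed hFrob)

/-- **(G) in the consumer shape from (F) and MP-RED at the exponents `p ^ n`.** -/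
theorem stmtK8GeoE_of_fac (hFac : StmtFac) (hRed : StmtRedPow) :
    Fermat.Agent.RT.Interp.StmtK8GeoE :=
  stmtK8GeoE_of hRed (stmtFrobToricPow_of_fac hFac)

/-- **`RIB.StmtTR` from MP-RED and MP-FROB at the exponents `p ^ n` and the base contract of the
K-machine.** -/
theorem rtk8g_stmtTR (hRed : StmtRedPow) (hFrob : StmtFrobToricPow)
    (hBase : Fermat.Agent.RT.Interp.StmtBase) : Fermat.Agent.RIB.StmtTR :=
  Fermat.Agent.RT.Interp.rtint_stmtTR_of_geoE (stmtK8GeoE_of hRed hFrob) hBase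

end Fermat.Agent.RT.K8

end
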