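/-
RT-K8 (helper21), clause (G): FROM THE MP PIECES.

(G) is reduced to the ONE input of Mazur's principle which is still open:
`RIB.MP.StmtFac` (MP-FAC, helper95: the local factorisation (F)).

* `stmtRedPow_of_fac : StmtFac → StmtRedPow` (helper85's `ribmp_red_pow_of_fac`, with helper91's
  RED-a `stmtRedA`);
* `stmtK8GeoE_of_mp : StmtFac → RT.Interp.StmtK8GeoE`;
* `rtk8g_stmtTR_of_mp : StmtFac → RT.Interp.StmtBase → RIB.StmtTR`.
-/
import Fermat.Agent.RT.K8.GeoFinal
import Fermat.Agent.RIB.MP.RedMain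

set_option autoImplicit false

namespace Fermat.Agent.RT.K8

open Fermat.Agent.RIB.MP

/-- MP-RED at the exponents `p ^ n` from (F) (helper85's `ribmp_red_pow_of_fac`) -/
theorem stmtRedPow_of_fac (hFac : StmtFac) : StmtRedPow :=
  fun M₁ q _ _ _ hq hqM hE hq2 p hp hp5 hpq A hA n x hx hI ℓ hℓ =>
    ribmp_red_pow_of_fac hFac M₁ q hq hqM hE hq2 p hp hp5 hpq n A hA x hx hI ℓ hℓ

/-- **(G) in the consumer shape from (F).** -/
theorem stmtK8GeoE_of_mp (hFac : StmtFac) : Fermat.Agent.RT.Interp.StmtK8GeoE :=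
  stmtK8GeoE_of (stmtRedPow_of_fac hFac) (stmtFrobToricPow_of_fac hFac)

/-- **`RIB.StmtTR` from (F) and the base contract of the K-machine.** -/
theorem rtk8g_stmtTR_of_mp (hFac : StmtFac)
    (hBase : Fermat.Agent.RT.Interp.StmtBase) : Fermat.Agent.RIB.StmtTR :=
  Fermat.Agent.RT.Interp.rtint_stmtTR_of_geoE (stmtK8GeoE_of_mp hFac) hBase

end Fermat.Agent.RT.K8
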