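/-
RT-K8 (helper21), P3 FORK: the geometric clause (G) and K8, POINTWISE, for EVERY prime `p`.

The landed chain `PlanGeo → GeoAlg → GeoFinal → GeoAll` carries `5 ≤ p`, `q ≠ 2`,
`5 ≤ q ∨ (5 - q) ∣ M₁` only in order to call three results of Mazur's principle (RIB/MP).  Here the
three results are HYPOTHESES at ONE triple `(M₁, q, p)`; nothing else is assumed on `p`, `q`:

* `rtk8p3_DivAt M₁ p`            : MP-DIV, the `p`-power torsion of `J₀(M₁)(ℚ̄)` is `p`-divisible;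
* `rtk8p3_RedAt M₁ q p hq hqM`   : MP-RED at the exponents `p ^ n`;
* `rtk8p3_FrobAt M₁ q p hq hqM`  : MP-FROB at the exponents `p ^ n`.

RESULTS
* `rtk8p3_geoJ_at`  : the `J`-form of (G) at `(M₁, q, p)`;
* `rtk8p3_geoAt`    : `RT.Interp.K8GeoAt p (M₁ * q) g q S` (the consumer form of (G));
* `rtk8p3_geoAt_dvd`: the same for a level `M` with `q ∣ M`, `¬ q ^ 2 ∣ M`;
* `rtk8p3_k8_at`    : K8 at `(p, M, g, q, S)`: the representation attached to a specialisation of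
                      the eigensystem of the newform `g` is RAMIFIED at `q`;
* `rtk8p3_StmtInOn R`, `rtk8p3_StmtK8On R`, `rtk8p3_stmtK8On_of : StmtInOn R → StmtK8On R` :
  the statement forms on a range `R p q M₁` of triples;
* `rtk8p3_stmtInOn_old` : the landed range (`5 ≤ p`, `q ≠ 2`, `5 ≤ q ∨ (5 - q) ∣ M₁`) from (F).
-/
import Fermat.Agent.RT.K8.GeoFinal
import Fermat.Agent.RT.K8.GeoMP

set_option autoImplicit false
set_option linter.unusedSectionVars false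
set_option linter.unusedVariables false
set_option linter.style.haveILetI false

noncomputable section

namespace Fermat.Agent.RT.K8

open ModularCurve AlgebraicCurve Fermat.Agent.ES Fermat.Agent.ES.G2 Fermat.Agent.RIB.MP
  Fermat.Agent.UNIP Fermat.Agent.STB Fermat.Agent.S31 CongruenceSubgroup Polynomial

/-- **MP-DIV at `(M₁, p)`**: the `p`-power torsion of `J₀(M₁)(ℚ̄)` is `p`-divisible. -/
def rtk8p3_DivAt (M₁ p : ℕ) [NeZero M₁] : Prop :=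
  ∀ y : JZero M₁, IsPPowerTorsion p y → y ∈ pDivTors p (JZero M₁)

/-- **MP-RED at `(M₁, q, p)`, exponents `p ^ n`.** -/
def rtk8p3_RedAt (M₁ q p : ℕ) [NeZero M₁] [NeZero q] [NeZero (M₁ * q)] (hq : q.Prime)
    (hqM : ¬ q ∣ M₁) : Prop :=
  ∀ A : ValuationSubring Qb, A.LiesOverPrime q →
    ∀ (n : ℕ) (x : JZero (M₁ * q)), p ^ n • x = 0 → InertiaFixed A x →
    ∀ ℓ : Nat.Primes, ¬ (ℓ : ℕ) ∣ M₁ * q * p →
      (∃ y : JZero M₁, p ^ n • y = 0 ∧ RedInf A (p ^ n) (eisKill ℓ x) y) ∧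
      (∃ y : JZero M₁, p ^ n • y = 0 ∧ RedZero hq hqM A (p ^ n) (eisKill ℓ x) y)

/-- **MP-FROB at `(M₁, q, p)`, exponents `p ^ n`.** -/
def rtk8p3_FrobAt (M₁ q p : ℕ) [NeZero M₁] [NeZero q] [NeZero (M₁ * q)] (hq : q.Prime)
    (hqM : ¬ q ∣ M₁) : Prop :=
  ∀ A : ValuationSubring Qb, A.LiesOverPrime q →
    ∀ σ : Qb ≃ₐ[ℚ] Qb, A.IsFrobeniusAt σ q →
    ∀ (n : ℕ) (x : JZero (M₁ * q)), p ^ n • x = 0 → InertiaFixed A x →
    ∀ ℓ : Nat.Primes, ¬ (ℓ : ℕ) ∣ M₁ * q * p →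
      IsToric hq hqM A (p ^ n) (eisKill ℓ x) →
        σ • (atkinLehnerBar hq hqM • eisKill ℓ x) + q • eisKill ℓ x = 0

section Main

variable {M₁ q : ℕ} [NeZero M₁] [NeZero q] [NeZero (M₁ * q)]

/-- **(G), `J`-form, at one triple `(M₁, q, p)`**, `p` ANY prime. -/
theorem rtk8p3_geoJ_at (hq : q.Prime) (hqM : ¬ q ∣ M₁) {p : ℕ} (hp : p.Prime)
    (hDiv : rtk8p3_DivAt M₁ p) (hRed : rtk8p3_RedAt M₁ q p hq hqM)
    (hFrob : rtk8p3_FrobAt M₁ q p hq hqM)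
    (A : ValuationSubring Qb) (hA : A.LiesOverPrime q)
    (σ : Qb ≃ₐ[ℚ] Qb) (hσ : A.IsFrobeniusAt σ q)
    (t₀ : HeckeAlg) (ht₀ : t₀ ∈ MvPolynomial.supported ℤ (goodPrimes (M₁ * q) p))
    (hK : CuspForm.heckeEvalForms M₁ 2 t₀ = 0)
    (ℓ : Nat.Primes) (hℓ : ¬ (ℓ : ℕ) ∣ M₁ * q * p)
    (x : PDiv (M₁ * q) p) (hI : InertiaFixed A (x : JZero (M₁ * q))) :
    letI := pDivModule (M₁ * q) p
    letI := pDivGalois (M₁ * q) p
    (σ * σ) • ((t₀ * (heckeGen ℓ - (((ℓ : ℕ) : HeckeAlg) + 1))) • x) =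
      (q ^ 2) • ((t₀ * (heckeGen ℓ - (((ℓ : ℕ) : HeckeAlg) + 1))) • x) := by
  letI := pDivModule (M₁ * q) p
  letI := pDivGalois (M₁ * q) p
  have hmN := multData_of_torsionUnifData hp.ne_zero (stb_p2_unifData (M₁ * q) p hp.pos)
  have hℓN : ¬ (ℓ : ℕ) ∣ M₁ * q * p := hℓ
  have hsub : ∀ r : Nat.Primes, ¬ (r : ℕ) ∣ M₁ * q * p → ¬ (r : ℕ) ∣ M₁ * p := by
    intro r hr h
    apply hr
    rcases (Nat.Prime.dvd_mul r.2).mp h with h | h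
    · exact (h.mul_right q).mul_right p
    · exact h.mul_left (M₁ * q)
  obtain ⟨n, hn⟩ := isPPowerTorsion_coe x
  have hpn : p ^ n ≠ 0 := pow_ne_zero n hp.ne_zero
  set E : HeckeAlg := heckeGen ℓ - (((ℓ : ℕ) : HeckeAlg) + 1) with hE
  -- the Hecke polynomials commute with the Galois action
  have hgal : ∀ (t : HeckeAlg) (y : PDiv (M₁ * q) p),
      InertiaFixed A (y : JZero (M₁ * q)) → InertiaFixed A ((t • y : PDiv (M₁ * q) p) :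
        JZero (M₁ * q)) := by
    intro t y hy τ hτ
    have h1 := hmN.pDiv_smul_comm τ t y
    have h2 : τ • y = y := Subtype.ext (hy τ hτ)
    rw [h2] at h1
    exact congrArg Subtype.val h1
  have htors : ∀ (t : HeckeAlg) (y : PDiv (M₁ * q) p), p ^ n • (y : JZero (M₁ * q)) = 0 →
      p ^ n • ((t • y : PDiv (M₁ * q) p) : JZero (M₁ * q)) = 0 := by
    intro t y hy
    rw [← coe_nsmul_pDiv, smul_comm, (pDiv_smul_eq_zero_iff _ _).mpr hy, smul_zero]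
    rfl
  -- 1. MP-RED
  obtain ⟨⟨yi, hyi, hRi⟩, ⟨yz, hyz, hRz⟩⟩ := hRed A hA n (x : JZero (M₁ * q)) hn hI ℓ hℓ
  -- 2. MP-DIV
  have hyi' : yi ∈ pDivTors p (JZero M₁) := hDiv yi ⟨n, hyi⟩
  have hyz' : yz ∈ pDivTors p (JZero M₁) := hDiv yz ⟨n, hyz⟩
  have hEx := rtk8g_coe_eis hp hℓN x
  rw [← hE] at hEx
  -- 3. stability under `t₀`, and `t₀ y = 0`
  have ht₀M : t₀ ∈ MvPolynomial.supported ℤ (goodPrimes M₁ p) :=
    MvPolynomial.supported_mono (fun r hr => hsub r hr) ht₀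
  have hSi := rtk8g_poly_stable hp hsub (rtk8gRedInf A (p ^ n))
    (fun r hr z hz => ribmp_hk_redInf A (p ^ n) r (fun h => hr (h.mul_right p)) hz) ht₀
    (E • x) ⟨yi, hyi'⟩ (by rw [mem_rtk8gRedInf, hEx]; exact hRi)
  have hSz := rtk8g_poly_stable hp hsub (rtk8gRedZero hq hqM A (p ^ n))
    (fun r hr z hz => ribmp_hk_redZero hq hqM A (p ^ n) r (fun h => hr (h.mul_right p)) hz) ht₀
    (E • x) ⟨yz, hyz'⟩ (by rw [mem_rtk8gRedZero, hEx]; exact hRz)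
  rw [stb_p2_kills hp t₀ ht₀M hK] at hSi hSz
  have hTi : TrivInf A (p ^ n) ((t₀ • E • x : PDiv (M₁ * q) p) : JZero (M₁ * q)) :=
    rtk8g_trivInf_of_redInf hpn hSi
  have hTz : TrivZero hq hqM A (p ^ n) ((t₀ • E • x : PDiv (M₁ * q) p) : JZero (M₁ * q)) :=
    rtk8g_trivZero_of_redZero hq hqM hpn hSz
  -- 4. `t₀ E x = E (t₀ x)`
  have hcomm : t₀ • E • x = E • t₀ • x := by
    rw [← mul_smul, ← mul_smul, mul_comm t₀ E]
  have hz : ((t₀ • E • x : PDiv (M₁ * q) p) : JZero (M₁ * q)) =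
      eisKill ℓ ((t₀ • x : PDiv (M₁ * q) p) : JZero (M₁ * q)) := by
    rw [hcomm, hE]
    exact rtk8g_coe_eis hp hℓN (t₀ • x)
  rw [hz] at hTi hTz
  have hF := hFrob A hA σ hσ n
    ((t₀ • x : PDiv (M₁ * q) p) : JZero (M₁ * q)) (htors t₀ x hn) (hgal t₀ x hI) ℓ hℓ
    ⟨hTi, hTz⟩
  rw [← hz] at hF
  -- 5. conclusion
  set Z : JZero (M₁ * q) := ((t₀ • E • x : PDiv (M₁ * q) p) : JZero (M₁ * q)) with hZ
  have hZt : p ^ n • Z = 0 := htors t₀ (E • x) (htors E x hn)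
  have hF' : σ • atkinLehnerBar hq hqM • Z = -(q • Z) := eq_neg_of_add_eq_zero_left hF
  let fσ : JZero (M₁ * q) →+ JZero (M₁ * q) := DistribSMul.toAddMonoidHom (JZero (M₁ * q)) σ
  let fw : JZero (M₁ * q) →+ JZero (M₁ * q) :=
    DistribSMul.toAddMonoidHom (JZero (M₁ * q)) (atkinLehnerBar hq hqM)
  have hwZt : p ^ n • fw Z = 0 := by rw [← map_nsmul, hZt, map_zero]
  have h0 : fσ (fw Z) = -(q • Z) := hF'
  have h1 : fσ Z = -(q • fw Z) := by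
    have ha : fw (fσ (fw Z)) = fσ (fw (fw Z)) := rtk8g_w_galois hq hqM σ hpn hwZt
    have hb : fw (fw Z) = Z := rtk8g_w_w hq hqM Z
    rw [hb] at ha
    rw [← ha, h0, map_neg, map_nsmul]
  have h2 : fσ (fσ Z) = q ^ 2 • Z := by
    rw [h1, map_neg, map_nsmul, h0, neg_nsmul, neg_neg, pow_two, mul_nsmul]
  apply Subtype.ext
  have e1 : (((σ * σ) • ((t₀ * E) • x) : PDiv (M₁ * q) p) : JZero (M₁ * q)) = fσ (fσ Z) := by
    rw [mul_smul σ σ, mul_smul t₀ E]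
    rfl
  have e2 : ((q ^ 2 • ((t₀ * E) • x) : PDiv (M₁ * q) p) : JZero (M₁ * q)) = q ^ 2 • Z := by
    rw [coe_nsmul_pDiv, mul_smul t₀ E]
  rw [e1, e2, h2]

/-- **(G) in the consumer shape at `(p, M₁ q, g, q, S)`**, `p` ANY prime. -/
theorem rtk8p3_geoAt {p : ℕ} [Fact p.Prime] {g : CuspForm (Gamma0 (M₁ * q)) 2}
    (hg : g.IsNewform) (hq : q.Prime) (hqM : ¬ q ∣ M₁)
    (hDiv : rtk8p3_DivAt M₁ p) (hRed : rtk8p3_RedAt M₁ q p hq hqM)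
    (hFrob : rtk8p3_FrobAt M₁ q p hq hqM)
    {S : Finset ℕ} (hpS : p ∈ S) (hMS : ∀ r : ℕ, r.Prime → r ∣ M₁ * q → r ∈ S)
    (ℓ₀ : Nat.Primes) (hℓ₀S : (ℓ₀ : ℕ) ∉ S)
    (hℓ₀g : heckeValue g (MvPolynomial.X ℓ₀ - MvPolynomial.C (((ℓ₀ : ℕ) : ℤ) + 1)) ≠ 0) :
    Fermat.Agent.RT.Interp.K8GeoAt p (M₁ * q) g q S := by
  have hp : p.Prime := Fact.out
  have hp0 : p ≠ 0 := hp.ne_zero
  have hM₁0 : M₁ ≠ 0 := NeZero.ne M₁
  -- the Eichler–Shimura package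
  obtain ⟨⟨μ, hμd⟩, hlev, hfrob, hunr'⟩ := Fermat.Agent.S35.stmtESIn_proved (M₁ * q) p hp
  have hm := multData_of_torsionUnifData hp0 hμd
  have hJd : letI := pDivModule (M₁ * q) p; letI := pDivGalois (M₁ * q) p
      ESDataInf (M₁ * q) p (PDiv (M₁ * q) p) := hm.esDataInf hlev hfrob hunr'
  have hfaith : letI := pDivModule (M₁ * q) p; letI := pDivGalois (M₁ * q) p
      ESFaith (M₁ * q) p (PDiv (M₁ * q) p) := hm.esFaith hp0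
  -- a place over `q` and a Frobenius element
  obtain ⟨A, φ, hA, hφ⟩ := Fermat.Agent.Common.exists_isFrobeniusAt q hq
  -- the Hecke polynomial `t₀`
  have hne : M₁ ≠ M₁ * q := by
    intro h
    have h1 : M₁ * 1 = M₁ * q := by rw [mul_one]; exact h
    exact hq.one_lt.ne (Nat.eq_of_mul_eq_mul_left (Nat.pos_of_ne_zero hM₁0) h1)
  obtain ⟨t₀, ht₀, ht₀0, ht₀g⟩ := stb_p1
    (fun N p _ hp => esPkgFaith_of_inputs Fermat.Agent.INJ.injAll_stmtINJAll hp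
      (torsionUnif_proved N p hp.pos))
    hg (Dvd.intro q rfl) hne S hMS
  have hgood : ∀ r : Nat.Primes, (r : ℕ) ∉ S → ¬ (r : ℕ) ∣ M₁ * q * p := by
    intro r hrS h
    rcases (Nat.Prime.dvd_mul r.2).mp h with h | h
    · exact hrS (hMS r r.2 h)
    · rw [(Nat.prime_dvd_prime_iff_eq r.2 hp).mp h] at hrS
      exact hrS hpS
  have ht₀' : t₀ ∈ MvPolynomial.supported ℤ (goodPrimes (M₁ * q) p) :=
    MvPolynomial.supported_mono (fun r hr => hgood r hr) ht₀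
  have hE : (MvPolynomial.X ℓ₀ - MvPolynomial.C (((ℓ₀ : ℕ) : ℤ) + 1) : HeckeAlg) =
      heckeGen ℓ₀ - (((ℓ₀ : ℕ) : HeckeAlg) + 1) := by
    rw [map_add, map_one, map_natCast]
    rfl
  refine ⟨PDiv (M₁ * q) p, inferInstance, pDivModule (M₁ * q) p, pDivGalois (M₁ * q) p,
    hJd, hfaith, A, φ, hA, hφ,
    t₀ * (MvPolynomial.X ℓ₀ - MvPolynomial.C (((ℓ₀ : ℕ) : ℤ) + 1)), ?_, ?_, ?_⟩
  · refine Subalgebra.mul_mem _ ht₀ (Subalgebra.sub_mem _ ?_ ?_)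
    · exact (MvPolynomial.X_mem_supported (R := ℤ)).mpr hℓ₀S
    · exact Subalgebra.algebraMap_mem _ _
  · rw [stb_p1_heckeValue_mul]
    exact mul_ne_zero ht₀g hℓ₀g
  · intro x _ hI
    rw [hE]
    exact rtk8p3_geoJ_at hq hqM hp hDiv hRed hFrob A hA φ hφ t₀ ht₀' ht₀0 ℓ₀
      (hgood ℓ₀ hℓ₀S) x (fun σ hσ => congrArg Subtype.val (hI σ hσ))

end Main

/-- the three inputs of Mazur's principle at every decomposition `M = M₁ q` -/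
def rtk8p3_InAt (p M q : ℕ) : Prop :=
  ∀ (M₁ : ℕ) [NeZero M₁] [NeZero q] [NeZero (M₁ * q)] (hq : q.Prime) (hqM : ¬ q ∣ M₁),
    M = M₁ * q →
      rtk8p3_DivAt M₁ p ∧ rtk8p3_RedAt M₁ q p hq hqM ∧ rtk8p3_FrobAt M₁ q p hq hqM

/-- **(G) in the consumer shape at `(p, M, g, q, S)`**, `q ∥ M`, `p` ANY prime. -/
theorem rtk8p3_geoAt_dvd {p : ℕ} [Fact p.Prime] {M : ℕ} [NeZero M]
    {g : CuspForm (Gamma0 M) 2} (hg : g.IsNewform) {q : ℕ} (hq : q.Prime) (hqM : q ∣ M)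
    (hq2M : ¬ q ^ 2 ∣ M) (hin : rtk8p3_InAt p M q)
    {S : Finset ℕ} (hpS : p ∈ S) (hMS : ∀ r : ℕ, r.Prime → r ∣ M → r ∈ S)
    (ℓ₀ : Nat.Primes) (hℓ₀S : (ℓ₀ : ℕ) ∉ S)
    (hℓ₀g : heckeValue g (MvPolynomial.X ℓ₀ - MvPolynomial.C (((ℓ₀ : ℕ) : ℤ) + 1)) ≠ 0) :
    Fermat.Agent.RT.Interp.K8GeoAt p M g q S := by
  obtain ⟨M₁, hM₁⟩ := hqM
  have hMeq : M = M₁ * q := by rw [hM₁, mul_comm]
  subst hMeq
  have hM₁0 : M₁ ≠ 0 := fun h => NeZero.ne (M₁ * q) (by rw [h, zero_mul])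
  haveI : NeZero M₁ := ⟨hM₁0⟩
  haveI : NeZero q := ⟨hq.ne_zero⟩
  have hqM' : ¬ q ∣ M₁ := by
    rintro ⟨c, rfl⟩
    exact hq2M ⟨c, by ring⟩
  obtain ⟨hDiv, hRed, hFrob⟩ := hin M₁ hq hqM' rfl
  exact rtk8p3_geoAt hg hq hqM' hDiv hRed hFrob hpS hMS ℓ₀ hℓ₀S hℓ₀g

/-- **K8 at `(p, M, g, q, S)`**, `q ∥ M`, `q ≠ p`, `p` ANY prime: the representation attached to a
specialisation of the eigensystem of the newform `g` is ramified at `q`. -/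
theorem rtk8p3_k8_at {p : ℕ} [Fact p.Prime] {M : ℕ} [NeZero M] {g : CuspForm (Gamma0 M) 2}
    (hg : g.IsNewform) {q : ℕ} (hq : q.Prime) (hqp : q ≠ p) (hqM : q ∣ M) (hq2M : ¬ q ^ 2 ∣ M)
    (hin : rtk8p3_InAt p M q)
    {S : Finset ℕ} (hpS : p ∈ S) (hMS : ∀ r : ℕ, r.Prime → r ∣ M → r ∈ S)
    {A : Type} [CommRing A] [IsLocalRing A] [IsDomain A] [CharZero A] [IsNoetherianRing A]
    (hpA : (p : A) ∈ IsLocalRing.maximalIdeal A) (a : Nat.Primes → A)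
    (hconj : ∀ t ∈ MvPolynomial.supported ℤ (outsideVars (↑S : Set ℕ)),
      heckeValue g t = 0 ↔ MvPolynomial.aeval a t = 0)
    (ρ : GaloisRepAdic A)
    (hfrob : ∀ ℓ : Nat.Primes, (ℓ : ℕ) ∉ S →
      ∀ 𝔄 : ValuationSubring (AlgebraicClosure ℚ), 𝔄.LiesOverPrime ℓ →
        ∀ σ : AlgebraicClosure ℚ ≃ₐ[ℚ] AlgebraicClosure ℚ, 𝔄.IsFrobeniusAt σ ℓ →
          LinearMap.charpoly (ρ.ρ σ) = X ^ 2 - C (a ℓ) * X + C (((ℓ : ℕ) : A)))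
    (habs : ρ.residual.IsAbsolutelyIrreducible) :
    ¬ ρ.IsUnramifiedAt q :=
  Fermat.Agent.RT.Interp.rtint_k8_at hg hq hqp hpS hMS
    (fun ℓ₀ hℓ₀S hℓ₀g => rtk8p3_geoAt_dvd hg hq hqM hq2M hin hpS hMS ℓ₀ hℓ₀S hℓ₀g)
    hpA a hconj ρ hfrob habs

/-- **The inputs of Mazur's principle on a range `R p q M₁` of triples.** -/
def rtk8p3_StmtInOn (R : ℕ → ℕ → ℕ → Prop) : Prop :=
  ∀ (p q M₁ : ℕ) [NeZero M₁] [NeZero q] [NeZero (M₁ * q)] (hq : q.Prime) (hqM : ¬ q ∣ M₁),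
    p.Prime → p ≠ q → R p q M₁ →
      rtk8p3_DivAt M₁ p ∧ rtk8p3_RedAt M₁ q p hq hqM ∧ rtk8p3_FrobAt M₁ q p hq hqM

/-- **K8 (consumer shape) on a range `R p q M₁` of triples**, `M₁ = M / q`. -/
def rtk8p3_StmtK8On (R : ℕ → ℕ → ℕ → Prop) : Prop :=
  ∀ (p : ℕ), p.Prime → ∀ (M : ℕ) [NeZero M] (g : CuspForm (Gamma0 M) 2), g.IsNewform →
    ∀ q : ℕ, q.Prime → q ≠ p → q ∣ M → ¬ q ^ 2 ∣ M → R p q (M / q) →
    ∀ S : Finset ℕ, p ∈ S → (∀ r : ℕ, r.Prime → r ∣ M → r ∈ S) →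
    ∀ (A : Type) [CommRing A] [IsLocalRing A] [IsDomain A] [CharZero A] [IsNoetherianRing A],
      (p : A) ∈ IsLocalRing.maximalIdeal A →
    ∀ (a : Nat.Primes → A),
      (∀ t ∈ MvPolynomial.supported ℤ (outsideVars (↑S : Set ℕ)),
        heckeValue g t = 0 ↔ MvPolynomial.aeval a t = 0) →
    ∀ ρ : GaloisRepAdic A,
      (∀ ℓ : Nat.Primes, (ℓ : ℕ) ∉ S →
        ∀ 𝔄 : ValuationSubring (AlgebraicClosure ℚ), 𝔄.LiesOverPrime ℓ →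
          ∀ σ : AlgebraicClosure ℚ ≃ₐ[ℚ] AlgebraicClosure ℚ, 𝔄.IsFrobeniusAt σ ℓ →
            LinearMap.charpoly (ρ.ρ σ) = X ^ 2 - C (a ℓ) * X + C (((ℓ : ℕ) : A))) →
      ρ.residual.IsAbsolutelyIrreducible →
      ¬ ρ.IsUnramifiedAt q

/-- **K8 on a range from the inputs of Mazur's principle on that range.** -/
theorem rtk8p3_stmtK8On_of {R : ℕ → ℕ → ℕ → Prop} (h : rtk8p3_StmtInOn R) :
    rtk8p3_StmtK8On R := by
  intro p hp M _ g hg q hq hqp hqM hq2M hR S hpS hMS A _ _ _ _ _ hpA a hconj ρ hfrob habs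
  haveI : Fact p.Prime := ⟨hp⟩
  refine rtk8p3_k8_at hg hq hqp hqM hq2M ?_ hpS hMS hpA a hconj ρ hfrob habs
  intro M₁ _ _ _ hq' hqM' hM
  have hM₁ : M / q = M₁ := by
    rw [hM]
    exact Nat.mul_div_cancel M₁ hq.pos
  rw [hM₁] at hR
  exact h p q M₁ hq' hqM' hp hqp.symm hR

/-- K8 on a smaller range -/
theorem rtk8p3_stmtK8On_mono {R₁ R₂ : ℕ → ℕ → ℕ → Prop} (h₁ : rtk8p3_StmtK8On R₁)
    (h : ∀ p q M₁, R₂ p q M₁ → R₁ p q M₁) : rtk8p3_StmtK8On R₂ :=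
  fun p hp M _ g hg q hq hqp hqM hq2M hR => h₁ p hp M g hg q hq hqp hqM hq2M (h _ _ _ hR)

/-- the inputs on a union of ranges -/
theorem rtk8p3_stmtInOn_union {R₁ R₂ : ℕ → ℕ → ℕ → Prop} (h₁ : rtk8p3_StmtInOn R₁)
    (h₂ : rtk8p3_StmtInOn R₂) : rtk8p3_StmtInOn (fun p q M₁ => R₁ p q M₁ ∨ R₂ p q M₁) := by
  intro p q M₁ _ _ _ hq hqM hp hpq hR
  rcases hR with hR | hR
  · exact h₁ p q M₁ hq hqM hp hpq hR
  · exact h₂ p q M₁ hq hqM hp hpq hR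

/-- **The landed range**: `5 ≤ p`, `q ≠ 2`, `5 ≤ q ∨ (5 - q) ∣ M₁`, from the local factorisation
(F) (`RIB.MP.StmtFac`; proved: `RIB.MP.stmtFac` in `RIB/MP/FacAll.lean`). -/
theorem rtk8p3_stmtInOn_old (hFac : StmtFac) :
    rtk8p3_StmtInOn (fun p q M₁ => 5 ≤ p ∧ q ≠ 2 ∧ (5 ≤ q ∨ (5 - q) ∣ M₁)) := by
  intro p q M₁ _ _ _ hq hqM hp hpq hR
  obtain ⟨hp5, hq2, hE⟩ := hR
  refine ⟨fun y hy => rtk8g_torsDiv M₁ p hp hp5 y hy, ?_, ?_⟩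
  · intro A hA n x hx hI ℓ hℓ
    exact stmtRedPow_of_fac hFac M₁ q hq hqM hE hq2 p hp hp5 hpq A hA n x hx hI ℓ hℓ
  · intro A hA σ hσ n x hx hI ℓ hℓ htor
    exact stmtFrobToricPow_of_fac hFac M₁ q hq hqM hE hq2 p hp hp5 hpq A hA σ hσ n x hx hI ℓ hℓ
      htor

end Fermat.Agent.RT.K8

end
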