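import Fermat.Agent.S32.Algebra

/-!
# RT-K8, algebra part 1: two lemmas on the quadratic relation

Setting of `Fermat/Agent/S32/Algebra.lean`: a ring `E`, a group `G` acting through `a : G →* E`,
`χ : G → E` central and multiplicative, `t g = a g + χ g * a g⁻¹` commuting with all `a h`
(`S32.QuadRel a χ t`).

* `rtk8_unram` (**Lemma A**): if `χ σ = 1` and `t (g * σ) = t g` for all `g`, then
  `(a σ - 1) * (t (g₁ g₂ g₃) - t (g₂ g₁ g₃)) = 0`.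
* `rtk8_scalar` (**Lemma B**): if `e` commutes with all `a g` and `a Φ * e = χ Φ * e`, then
  `(χ Φ - 1) * (t (g₁ g₂ g₃) - t (g₂ g₁ g₃)) * e = 0`.
-/

set_option autoImplicit false
set_option linter.unusedSectionVars false

namespace Fermat.Agent.RT.K8

open Fermat.Agent.S32

variable {E : Type*} [Ring E] {G : Type*} [Group G]
variable {a : G →* E} {χ : G → E} {t : G → E}

/-- `t 1 = 2` -/
theorem rtk8_t_one (h : QuadRel a χ t) : t 1 = 2 := by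
  rw [h.t_eq, inv_one, map_one, h.chi_one, one_mul, one_add_one_eq_two]

/-- `χ` takes commuting values -/
theorem rtk8_chi_chi (h : QuadRel a χ t) (g g' : G) : χ g * χ g' = χ g' * χ g :=
  h.chi_comm g (χ g')

/-- cancellation of the central unit `χ g` -/
theorem rtk8_chi_cancel (h : QuadRel a χ t) (g : G) {x y : E} (hxy : χ g * x = χ g * y) :
    x = y := by
  have := congrArg (fun z => χ g⁻¹ * z) hxy
  simp only [← mul_assoc, h.chi_inv_mul, one_mul] at this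
  exact this

section LemmaA

variable (h : QuadRel a χ t) {σ : G} (hσ : χ σ = 1) (hun : ∀ g, t (g * σ) = t g)

include h hσ hun

/-- `a σ + a σ⁻¹ = 2` -/
theorem rtk8_unram_sum : a σ + a σ⁻¹ = 2 := by
  have h1 := hun 1
  rw [one_mul, h.t_eq, hσ, one_mul, rtk8_t_one h] at h1
  exact h1

/-- `a σ⁻¹ = 1 - (a σ - 1)` -/
theorem rtk8_unram_inv : a σ⁻¹ = 1 - (a σ - 1) := by
  have h1 := rtk8_unram_sum h hσ hun
  have : a σ⁻¹ = 2 - a σ := by rw [← h1]; abel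
  rw [this]
  have : (2 : E) = 1 + 1 := one_add_one_eq_two.symm
  rw [this]; abel

/-- `(a σ - 1)² = 0` -/
theorem rtk8_unram_sq : (a σ - 1) * (a σ - 1) = 0 := by
  have h1 := rtk8_unram_inv h hσ hun
  have h2 : a σ * a σ⁻¹ = 1 := h.a_mul_inv σ
  rw [h1] at h2
  have h3 : a σ = 1 + (a σ - 1) := by abel
  rw [h3] at h2
  have h4 : (1 + (a σ - 1)) * (1 - (1 + (a σ - 1) - 1)) = 1 - (a σ - 1) * (a σ - 1) := by
    noncomm_ring
  rw [h4] at h2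
  have := sub_eq_self.mp h2
  exact this

/-- `a g * (a σ - 1) = χ g * ((a σ - 1) * a g⁻¹)` -/
theorem rtk8_unram_conj (g : G) : a g * (a σ - 1) = χ g * ((a σ - 1) * a g⁻¹) := by
  have h1 := hun g
  rw [h.t_eq, h.t_eq, h.chi_mul, hσ, mul_one, mul_inv_rev, map_mul, map_mul,
    rtk8_unram_inv h hσ hun] at h1
  have h2 : a g * a σ + χ g * ((1 - (a σ - 1)) * a g⁻¹) - (a g + χ g * a g⁻¹) = 0 := by
    rw [h1, sub_self]
  have h3 : a g * a σ + χ g * ((1 - (a σ - 1)) * a g⁻¹) - (a g + χ g * a g⁻¹) =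
      a g * (a σ - 1) - χ g * ((a σ - 1) * a g⁻¹) := by
    noncomm_ring
  rw [h3] at h2
  exact sub_eq_zero.mp h2

/-- `(a σ - 1)` kills the commutators of the inverses -/
theorem rtk8_unram_comm_inv (g g' : G) :
    (a σ - 1) * (a g⁻¹ * a g'⁻¹) = (a σ - 1) * (a g'⁻¹ * a g⁻¹) := by
  have hgg := rtk8_unram_conj h hσ hun (g * g')
  rw [map_mul, h.chi_mul, mul_inv_rev, map_mul] at hgg
  have e1 : a g * a g' * (a σ - 1) = χ g' * (χ g * ((a σ - 1) * (a g⁻¹ * a g'⁻¹))) := by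
    rw [mul_assoc (a g), rtk8_unram_conj h hσ hun g', ← mul_assoc (a g), ← h.chi_comm g' (a g),
      mul_assoc (χ g'), ← mul_assoc (a g), rtk8_unram_conj h hσ hun g, mul_assoc (χ g),
      mul_assoc (a σ - 1)]
  rw [e1, rtk8_chi_chi h g g', mul_assoc (χ g')] at hgg
  exact rtk8_chi_cancel h g (rtk8_chi_cancel h g' hgg)

/-- `(a σ - 1)` kills the commutators -/
theorem rtk8_unram_comm (g g' : G) :
    (a σ - 1) * (a g * a g') = (a σ - 1) * (a g' * a g) := by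
  have := rtk8_unram_comm_inv h hσ hun g⁻¹ g'⁻¹
  rwa [inv_inv, inv_inv] at this

/-- three factors -/
theorem rtk8_unram_comm3 (x y z : G) :
    (a σ - 1) * (a x * a y * a z) = (a σ - 1) * (a x * a z * a y) := by
  have c := rtk8_unram_comm h hσ hun
  calc (a σ - 1) * (a x * a y * a z) = (a σ - 1) * (a x * a (y * z)) := by
        simp only [map_mul, mul_assoc]
    _ = (a σ - 1) * (a (y * z) * a x) := c x (y * z)
    _ = (a σ - 1) * (a y * a z) * a x := by simp only [map_mul, mul_assoc]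
    _ = (a σ - 1) * (a z * a y) * a x := by rw [c y z]
    _ = (a σ - 1) * (a (z * y) * a x) := by simp only [map_mul, mul_assoc]
    _ = (a σ - 1) * (a x * a (z * y)) := (c x (z * y)).symm
    _ = (a σ - 1) * (a x * a z * a y) := by simp only [map_mul, mul_assoc]

/-- **Lemma A**: `(a σ - 1) * (t (g₁ g₂ g₃) - t (g₂ g₁ g₃)) = 0`. -/
theorem rtk8_unram (g₁ g₂ g₃ : G) :
    (a σ - 1) * (t (g₁ * g₂ * g₃) - t (g₂ * g₁ * g₃)) = 0 := by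
  have hχ : χ (g₁ * g₂ * g₃) = χ (g₂ * g₁ * g₃) := by
    rw [h.chi_mul, h.chi_mul, h.chi_mul, h.chi_mul, rtk8_chi_chi h g₁ g₂]
  have e1 : (a σ - 1) * a (g₁ * g₂ * g₃) = (a σ - 1) * a (g₂ * g₁ * g₃) := by
    calc (a σ - 1) * a (g₁ * g₂ * g₃) = (a σ - 1) * (a g₁ * a g₂) * a g₃ := by
          simp only [map_mul, mul_assoc]
      _ = (a σ - 1) * (a g₂ * a g₁) * a g₃ := by rw [rtk8_unram_comm h hσ hun g₁ g₂]
      _ = (a σ - 1) * a (g₂ * g₁ * g₃) := by simp only [map_mul, mul_assoc]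
  have e2 : (a σ - 1) * a (g₁ * g₂ * g₃)⁻¹ = (a σ - 1) * a (g₂ * g₁ * g₃)⁻¹ := by
    calc (a σ - 1) * a (g₁ * g₂ * g₃)⁻¹ = (a σ - 1) * (a g₃⁻¹ * a g₂⁻¹ * a g₁⁻¹) := by
          simp only [mul_inv_rev, map_mul, mul_assoc]
      _ = (a σ - 1) * (a g₃⁻¹ * a g₁⁻¹ * a g₂⁻¹) := rtk8_unram_comm3 h hσ hun g₃⁻¹ g₂⁻¹ g₁⁻¹
      _ = (a σ - 1) * a (g₂ * g₁ * g₃)⁻¹ := by simp only [mul_inv_rev, map_mul, mul_assoc]
  have e3 : (a σ - 1) * (χ (g₁ * g₂ * g₃) * a (g₁ * g₂ * g₃)⁻¹) =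
      (a σ - 1) * (χ (g₁ * g₂ * g₃) * a (g₂ * g₁ * g₃)⁻¹) := by
    rw [h.chi_comm, h.chi_comm (g₁ * g₂ * g₃) (a (g₂ * g₁ * g₃)⁻¹), ← mul_assoc, ← mul_assoc, e2]
  rw [h.t_eq, h.t_eq, ← hχ, mul_sub, mul_add, mul_add, e1, e3, sub_self]

end LemmaA

section LemmaB

variable (h : QuadRel a χ t) {e : E} (he : ∀ g, e * a g = a g * e) {Φ : G}
  (hΦ : a Φ * e = χ Φ * e)

include h he hΦ

/-- `χ Φ * (a Φ⁻¹ * e) = e` -/
theorem rtk8_scalar_inv : χ Φ * (a Φ⁻¹ * e) = e := by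
  have h1 : a Φ⁻¹ * (a Φ * e) = a Φ⁻¹ * (χ Φ * e) := by rw [hΦ]
  rw [← mul_assoc, h.a_inv_mul, one_mul] at h1
  rw [← mul_assoc, h.chi_comm Φ (a Φ⁻¹), mul_assoc]
  exact h1.symm

/-- `(t (g Φ) - t g) * e = (χ Φ - 1) * a g * e` -/
theorem rtk8_scalar_t (g : G) : (t (g * Φ) - t g) * e = (χ Φ - 1) * a g * e := by
  have h1 : a (g * Φ) * e = χ Φ * a g * e := by
    rw [map_mul, mul_assoc, hΦ, ← mul_assoc, ← h.chi_comm]
  have h2 : χ (g * Φ) * a (g * Φ)⁻¹ * e = χ g * a g⁻¹ * e := by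
    calc χ (g * Φ) * a (g * Φ)⁻¹ * e = χ g * (χ Φ * (a Φ⁻¹ * (a g⁻¹ * e))) := by
          simp only [h.chi_mul, mul_inv_rev, map_mul, mul_assoc]
      _ = χ g * (χ Φ * (a Φ⁻¹ * (e * a g⁻¹))) := by rw [he g⁻¹]
      _ = χ g * ((χ Φ * (a Φ⁻¹ * e)) * a g⁻¹) := by simp only [mul_assoc]
      _ = χ g * (e * a g⁻¹) := by rw [rtk8_scalar_inv h he hΦ]
      _ = χ g * a g⁻¹ * e := by rw [he g⁻¹, mul_assoc]
  rw [h.t_eq, h.t_eq, sub_mul, add_mul, add_mul, h1, h2]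
  noncomm_ring

/-- `(χ Φ - 1)` is central -/
theorem rtk8_scalar_central (x : E) : (χ Φ - 1) * x = x * (χ Φ - 1) := by
  rw [sub_mul, mul_sub, h.chi_comm, one_mul, mul_one]

/-- `(χ Φ - 1)` kills the commutators on the image of `e` -/
theorem rtk8_scalar_comm (g g' : G) :
    (χ Φ - 1) * (a g * a g') * e = (χ Φ - 1) * (a g' * a g) * e := by
  have hc := rtk8_scalar_central h he hΦ
  have hH : (t (g * Φ) - t g) * a g' = a g' * (t (g * Φ) - t g) := by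
    rw [sub_mul, mul_sub, h.t_comm, h.t_comm]
  calc (χ Φ - 1) * (a g * a g') * e = (χ Φ - 1) * (a g * (a g' * e)) := by
        simp only [mul_assoc]
    _ = (χ Φ - 1) * (a g * (e * a g')) := by rw [he g']
    _ = ((χ Φ - 1) * a g * e) * a g' := by simp only [mul_assoc]
    _ = (t (g * Φ) - t g) * e * a g' := by rw [rtk8_scalar_t h he hΦ g]
    _ = (t (g * Φ) - t g) * (a g' * e) := by rw [mul_assoc, he g']
    _ = a g' * ((t (g * Φ) - t g) * e) := by rw [← mul_assoc, hH, mul_assoc]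
    _ = a g' * ((χ Φ - 1) * a g * e) := by rw [rtk8_scalar_t h he hΦ g]
    _ = (a g' * (χ Φ - 1)) * (a g * e) := by simp only [mul_assoc]
    _ = ((χ Φ - 1) * a g') * (a g * e) := by rw [hc (a g')]
    _ = (χ Φ - 1) * (a g' * a g) * e := by simp only [mul_assoc]

/-- **Lemma B**: `(χ Φ - 1) * (t (g₁ g₂ g₃) - t (g₂ g₁ g₃)) * e = 0`. -/
theorem rtk8_scalar (g₁ g₂ g₃ : G) :
    (χ Φ - 1) * (t (g₁ * g₂ * g₃) - t (g₂ * g₁ * g₃)) * e = 0 := by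
  have hc := rtk8_scalar_central h he hΦ
  have hχ : χ (g₁ * g₂ * g₃) = χ (g₂ * g₁ * g₃) := by
    rw [h.chi_mul, h.chi_mul, h.chi_mul, h.chi_mul, rtk8_chi_chi h g₁ g₂]
  have e1 : (χ Φ - 1) * a (g₁ * g₂ * g₃) * e = (χ Φ - 1) * a (g₂ * g₁ * g₃) * e := by
    calc (χ Φ - 1) * a (g₁ * g₂ * g₃) * e = (χ Φ - 1) * (a g₁ * a g₂) * (a g₃ * e) := by
          simp only [map_mul, mul_assoc]
      _ = (χ Φ - 1) * (a g₁ * a g₂) * (e * a g₃) := by rw [he g₃]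
      _ = ((χ Φ - 1) * (a g₁ * a g₂) * e) * a g₃ := by simp only [mul_assoc]
      _ = ((χ Φ - 1) * (a g₂ * a g₁) * e) * a g₃ := by rw [rtk8_scalar_comm h he hΦ g₁ g₂]
      _ = (χ Φ - 1) * (a g₂ * a g₁) * (e * a g₃) := by simp only [mul_assoc]
      _ = (χ Φ - 1) * (a g₂ * a g₁) * (a g₃ * e) := by rw [he g₃]
      _ = (χ Φ - 1) * a (g₂ * g₁ * g₃) * e := by simp only [map_mul, mul_assoc]
  have e2 : (χ Φ - 1) * a (g₁ * g₂ * g₃)⁻¹ * e = (χ Φ - 1) * a (g₂ * g₁ * g₃)⁻¹ * e := by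
    calc (χ Φ - 1) * a (g₁ * g₂ * g₃)⁻¹ * e
        = ((χ Φ - 1) * a g₃⁻¹) * ((a g₂⁻¹ * a g₁⁻¹) * e) := by
          simp only [mul_inv_rev, map_mul, mul_assoc]
      _ = (a g₃⁻¹ * (χ Φ - 1)) * ((a g₂⁻¹ * a g₁⁻¹) * e) := by rw [hc (a g₃⁻¹)]
      _ = a g₃⁻¹ * ((χ Φ - 1) * (a g₂⁻¹ * a g₁⁻¹) * e) := by simp only [mul_assoc]
      _ = a g₃⁻¹ * ((χ Φ - 1) * (a g₁⁻¹ * a g₂⁻¹) * e) := by
          rw [rtk8_scalar_comm h he hΦ g₂⁻¹ g₁⁻¹]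
      _ = (a g₃⁻¹ * (χ Φ - 1)) * ((a g₁⁻¹ * a g₂⁻¹) * e) := by simp only [mul_assoc]
      _ = ((χ Φ - 1) * a g₃⁻¹) * ((a g₁⁻¹ * a g₂⁻¹) * e) := by rw [hc (a g₃⁻¹)]
      _ = (χ Φ - 1) * a (g₂ * g₁ * g₃)⁻¹ * e := by
          simp only [mul_inv_rev, map_mul, mul_assoc]
  have e3 : (χ Φ - 1) * (χ (g₁ * g₂ * g₃) * a (g₁ * g₂ * g₃)⁻¹) * e =
      (χ Φ - 1) * (χ (g₁ * g₂ * g₃) * a (g₂ * g₁ * g₃)⁻¹) * e := by
    calc (χ Φ - 1) * (χ (g₁ * g₂ * g₃) * a (g₁ * g₂ * g₃)⁻¹) * e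
        = ((χ Φ - 1) * χ (g₁ * g₂ * g₃)) * (a (g₁ * g₂ * g₃)⁻¹ * e) := by
          simp only [mul_assoc]
      _ = (χ (g₁ * g₂ * g₃) * (χ Φ - 1)) * (a (g₁ * g₂ * g₃)⁻¹ * e) := by
          rw [hc (χ (g₁ * g₂ * g₃))]
      _ = χ (g₁ * g₂ * g₃) * ((χ Φ - 1) * a (g₁ * g₂ * g₃)⁻¹ * e) := by simp only [mul_assoc]
      _ = χ (g₁ * g₂ * g₃) * ((χ Φ - 1) * a (g₂ * g₁ * g₃)⁻¹ * e) := by rw [e2]
      _ = (χ (g₁ * g₂ * g₃) * (χ Φ - 1)) * (a (g₂ * g₁ * g₃)⁻¹ * e) := by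
          simp only [mul_assoc]
      _ = ((χ Φ - 1) * χ (g₁ * g₂ * g₃)) * (a (g₂ * g₁ * g₃)⁻¹ * e) := by
          rw [hc (χ (g₁ * g₂ * g₃))]
      _ = (χ Φ - 1) * (χ (g₁ * g₂ * g₃) * a (g₂ * g₁ * g₃)⁻¹) * e := by simp only [mul_assoc]
  rw [h.t_eq, h.t_eq, ← hχ, mul_sub, sub_mul, mul_add, mul_add, add_mul, add_mul, e1, e3,
    sub_self]

end LemmaB

end Fermat.Agent.RT.K8
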