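/-
RT-K8 (helper21): **K8 IS PROVED** (new at `q ∥ M` ⇒ ramified at `q`, for `q ≥ 5`, `p ≥ 5`).

* `stmtK8GeoE_proved : RT.Interp.StmtK8GeoE` — the geometric clause (G), unconditional
  (`stmtK8GeoE_of_mp` + helper95's `RIB.MP.stmtFac`);
* `stmtK8E_proved : RT.Interp.StmtK8E` — K8 in the consumer shape (helper46's glue
  `rtint_k8E_of_geoE` on top of the abstract theorem `stmtK8Abs`);
* `rtk8g_stmtTR_of_base : RT.Interp.StmtBase → RIB.StmtTR`.
-/
import Fermat.Agent.RT.K8.GeoMP
import Fermat.Agent.RIB.MP.FacAll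

set_option autoImplicit false

namespace Fermat.Agent.RT.K8

/-- **(G)**, the geometric clause of K8. -/
theorem stmtK8GeoE_proved : Fermat.Agent.RT.Interp.StmtK8GeoE :=
  stmtK8GeoE_of_mp Fermat.Agent.RIB.MP.stmtFac

/-- **K8** (consumer shape): the representation attached to a specialisation of the eigensystem
of a newform of level `M` is ramified at every prime `q ≥ 5`, `q ≠ p`, with `q ∥ M`. -/
theorem stmtK8E_proved : Fermat.Agent.RT.Interp.StmtK8E :=
  Fermat.Agent.RT.Interp.rtint_k8E_of_geoE stmtK8GeoE_proved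

/-- **`RIB.StmtTR` from the base contract of the K-machine.** -/
theorem rtk8g_stmtTR_of_base (hBase : Fermat.Agent.RT.Interp.StmtBase) :
    Fermat.Agent.RIB.StmtTR :=
  Fermat.Agent.RT.Interp.rtint_stmtTR_of_geoE stmtK8GeoE_proved hBase

end Fermat.Agent.RT.K8
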