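/-
RT-K8 (helper21), P3 FORK, the INPUTS: **K8 and (G) at every ODD prime `p` (`p = 3` included),
`q ≠ 2`, `q ∥ M`, `M / q` EVEN — UNCONDITIONAL.**

* `rtk8p3_redAt_of_fac`, `rtk8p3_frobAt_of_fac` : the inputs `RedAt` / `FrobAt` of
  `RT/K8/GeoP3.lean` from the local factorisation (F) at the exponents `p ^ r`
  (`RIB/MP/RedFrobAt.lean`);
* `rtk8p3_stmtInOn_even` : `rtk8p3_StmtInOn (fun p q M₁ => p ≠ 2 ∧ q ≠ 2 ∧ 2 ∣ M₁)`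
  (MP-DIV = helper15's `ribmp_tdo_torsDiv`, (F) = helper49's `StmtFacEven`);
* `rtk8p3_stmtK8On_even` : `rtk8p3_StmtK8On (fun p q M₁ => p ≠ 2 ∧ q ≠ 2 ∧ 2 ∣ M₁)`;
* `rtk8p3_stmtInOn_all`, `rtk8p3_stmtK8On_all` : the union with the landed range
  (`5 ≤ p`, `q ≠ 2`, `5 ≤ q ∨ (5 - q) ∣ M₁`).
-/
import Fermat.Agent.RT.K8.GeoP3
import Fermat.Agent.RT.K8.GeoAll
import Fermat.Agent.RIB.MP.RedFrobAt
import Fermat.Agent.RIB.MP.TorsDivOdd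

set_option autoImplicit false
set_option linter.unusedSectionVars false
set_option linter.unusedVariables false
set_option linter.style.haveILetI false

noncomputable section

namespace Fermat.Agent.RT.K8

open ModularCurve AlgebraicCurve Fermat.Agent.ES Fermat.Agent.ES.G2 Fermat.Agent.RIB.MP
  Fermat.Agent.UNIP

section At

variable {M₁ q : ℕ} [NeZero M₁] [NeZero q] [NeZero (M₁ * q)]

/-- MP-RED at `(M₁, q, p)` from (F) at the exponents `p ^ r` -/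
theorem rtk8p3_redAt_of_fac (hq : q.Prime) (hqM : ¬ q ∣ M₁) (hE : 5 ≤ q ∨ (5 - q) ∣ M₁)
    {p : ℕ} (hp : p.Prime) (hpq : p ≠ q) (hFac : ∀ r : ℕ, StmtFacAt M₁ q (p ^ r)) :
    rtk8p3_RedAt M₁ q p hq hqM :=
  fun A hA n x hx hI ℓ hℓ =>
    ribmpat_red_pow M₁ q hq hqM hE p hp hpq n (hFac n) A hA x hx hI ℓ hℓ

/-- MP-FROB at `(M₁, q, p)` from (F) at the exponents `p ^ r` -/
theorem rtk8p3_frobAt_of_fac (hq : q.Prime) (hqM : ¬ q ∣ M₁) (hE : 5 ≤ q ∨ (5 - q) ∣ M₁)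
    {p : ℕ} (hp : p.Prime) (hpq : p ≠ q) (hFac : ∀ r : ℕ, StmtFacAt M₁ q (p ^ r)) :
    rtk8p3_FrobAt M₁ q p hq hqM :=
  fun A hA σ hσ n x hx hI ℓ hℓ htor =>
    ribmpat_frob_pow M₁ q hq hqM hE p hp hpq n (hFac n) A hA σ hσ x hx hI ℓ hℓ htor

/-- the three inputs at `(M₁, q, p)` from MP-DIV and (F) at the exponents `p ^ r` -/
theorem rtk8p3_in_of_fac (hq : q.Prime) (hqM : ¬ q ∣ M₁) (hE : 5 ≤ q ∨ (5 - q) ∣ M₁)
    {p : ℕ} (hp : p.Prime) (hpq : p ≠ q) (hDiv : rtk8p3_DivAt M₁ p)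
    (hFac : ∀ r : ℕ, StmtFacAt M₁ q (p ^ r)) :
    rtk8p3_DivAt M₁ p ∧ rtk8p3_RedAt M₁ q p hq hqM ∧ rtk8p3_FrobAt M₁ q p hq hqM :=
  ⟨hDiv, rtk8p3_redAt_of_fac hq hqM hE hp hpq hFac, rtk8p3_frobAt_of_fac hq hqM hE hp hpq hFac⟩

end At

/-- **The inputs of K8 on the range `p` odd, `q ≠ 2`, `M₁` even — UNCONDITIONAL.** -/
theorem rtk8p3_stmtInOn_even :
    rtk8p3_StmtInOn (fun p q M₁ => p ≠ 2 ∧ q ≠ 2 ∧ 2 ∣ M₁) := by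
  intro p q M₁ _ _ _ hq hqM hp hpq hR
  obtain ⟨hp2, hq2, h2⟩ := hR
  exact rtk8p3_in_of_fac hq hqM (ribmpat_hE_of_even hq hq2 h2) hp hpq
    (fun y hy => ribmp_tdo_torsDiv M₁ p hp hp2 h2 y hy)
    (fun r => ribmp_face_pow_odd ribmpat_stmtFacEven M₁ q hq hqM hq2 h2 hp hp2 r)

/-- **K8 on the range `p` odd (`p = 3` included), `q ≠ 2`, `q ∥ M`, `M / q` even —
UNCONDITIONAL.** -/
theorem rtk8p3_stmtK8On_even :
    rtk8p3_StmtK8On (fun p q M₁ => p ≠ 2 ∧ q ≠ 2 ∧ 2 ∣ M₁) :=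
  rtk8p3_stmtK8On_of rtk8p3_stmtInOn_even

/-- the inputs of K8 on the union of the even range and of the landed range -/
theorem rtk8p3_stmtInOn_all :
    rtk8p3_StmtInOn (fun p q M₁ => (p ≠ 2 ∧ q ≠ 2 ∧ 2 ∣ M₁) ∨
      (5 ≤ p ∧ q ≠ 2 ∧ (5 ≤ q ∨ (5 - q) ∣ M₁))) :=
  rtk8p3_stmtInOn_union rtk8p3_stmtInOn_even (rtk8p3_stmtInOn_old Fermat.Agent.RIB.MP.stmtFac)

/-- K8 on the union of the even range and of the landed range -/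
theorem rtk8p3_stmtK8On_all :
    rtk8p3_StmtK8On (fun p q M₁ => (p ≠ 2 ∧ q ≠ 2 ∧ 2 ∣ M₁) ∨
      (5 ≤ p ∧ q ≠ 2 ∧ (5 ≤ q ∨ (5 - q) ∣ M₁))) :=
  rtk8p3_stmtK8On_of rtk8p3_stmtInOn_all

end Fermat.Agent.RT.K8

end
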