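/-
RT-K8 (helper21), P3 FORK: **K8 FOR `q`-NEW EIGENFORMS** (no newform needed).

The landed K8 is stated for a NEWFORM `g` of level `M`, `q ∥ M`.  Its proof uses the newness only
once: `STB.stb_p1` (a Hecke polynomial which kills `S₂(Γ₀(M / q))` and not `g`).  For that it is
enough that `g` is a normalised eigenform which is NEW AT `q`:
`¬ CuspForm.GoodEigensystemOccursAt g (M / q)` (prelude).  This is the form which the K-machine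
for a general `W` needs at `p = 3`: the level `M` stays EVEN (the newform of `g` may have odd
level), and an eigenform which is OLD at `q` is lowered for free.

* `STB.rtk8p3n_p1`          : the Hecke polynomial for an eigenform which is new relative to
                              `M₁ ∣ M` (fork of `stb_p1`);
* `RT.Interp.rtk8p3n_k8_at` : K8-GLUE for an EIGENFORM (fork of `rtint_k8_at`, which uses
                              `hg.1` only);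
* `RT.K8.rtk8p3n_geoAt`, `rtk8p3n_geoAt_dvd` : (G) in the consumer shape for a `q`-new eigenform;
* `RT.K8.rtk8p3n_K8NewAt p q M` : K8 at level `M` for `q`-new eigenforms (the body);
* `RT.K8.rtk8p3n_k8NewAt_of_in : rtk8p3_InAt p M q → rtk8p3n_K8NewAt p q M`;
* `RT.K8.rtk8p3n_k8NewAt_even` : UNCONDITIONAL for `p` odd (`p = 3` included), `q ≠ 2`,
  `q ∥ M`, `M / q` even;
* `RT.K8.rtk8p3n_k8NewAt_old`  : UNCONDITIONAL for `5 ≤ p`, `q ≠ 2`, `q ∥ M`,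
  `5 ≤ q ∨ (5 - q) ∣ M / q`.
-/
import Fermat.Agent.RT.K8.GeoP3In

set_option autoImplicit false
set_option linter.unusedSectionVars false
set_option linter.unusedVariables false
set_option linter.style.haveILetI false

noncomputable section

namespace Fermat.Agent.STB

open ModularCurve Fermat.Agent.ES Fermat.Agent.S31 Fermat.Agent.S30 ModularFormClass
  CongruenceSubgroup

section p1

variable {M M₁ : ℕ} [NeZero M] [NeZero M₁]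

/-- **STB-P1 for an eigenform which is new relative to `M₁ ∣ M`**: a Hecke polynomial in the
variables outside `S` which kills the cusp forms of level `M₁` and does not kill `g`. -/
theorem rtk8p3n_p1 (hpkg : ∀ (N p : ℕ) [NeZero N], p.Prime → ESPkgFaith N p)
    {g : CuspForm (Gamma0 M) 2} (hg : g.IsNormalizedEigenform) (hM₁ : M₁ ∣ M)
    (hnew : ¬ CuspForm.GoodEigensystemOccursAt g M₁)
    (S : Finset ℕ) (hMS : ∀ q : ℕ, q.Prime → q ∣ M → q ∈ S) :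
    ∃ P ∈ MvPolynomial.supported ℤ (outsideVars (↑S : Set ℕ)),
      CuspForm.heckeEvalForms M₁ 2 P = 0 ∧ heckeValue g P ≠ 0 := by
  classical
  by_contra hcon
  push Not at hcon
  obtain ⟨A, hA⟩ : ∃ A : Subalgebra ℤ HeckeAlg,
      A = MvPolynomial.supported ℤ (outsideVars (↑S : Set ℕ)) := ⟨_, rfl⟩
  obtain ⟨ι, hι⟩ : ∃ ι : A →+* CuspForm.heckeAlgebra M₁ 2 ∅,
      ∀ a : A, ι a = CuspForm.heckeEvalForms M₁ 2 (a : HeckeAlg) :=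
    ⟨(CuspForm.heckeEvalForms M₁ 2).comp A.val.toRingHom, fun a => rfl⟩
  obtain ⟨χ, hχ⟩ : ∃ χ : A →+* ℂ, ∀ a : A, χ a = heckeValue g (a : HeckeAlg) :=
    ⟨((MvPolynomial.aeval (fun ℓ : Nat.Primes => qCoeff ⇑g ℓ) :
      HeckeAlg →ₐ[ℤ] ℂ) : HeckeAlg →+* ℂ).comp A.val.toRingHom, fun a => rfl⟩
  have hker : RingHom.ker ι ≤ RingHom.ker χ := by
    intro a ha
    rw [RingHom.mem_ker] at ha ⊢
    rw [hχ]
    rw [hι] at ha
    exact hcon (a : HeckeAlg) (hA ▸ a.2) ha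
  have hfin : Module.Finite ℤ (CuspForm.heckeAlgebra M₁ 2 ∅) :=
    Fermat.Agent.S22.moduleFinite_heckeAlgebra M₁ 2 ∅
  have hfd : FiniteDimensional ℂ (CuspForm (Gamma0 M₁) 2) :=
    Fermat.Agent.S49.finiteDimensional_cuspForm M₁ 2
  obtain ⟨v, ψ, hv, hψ, hkψ⟩ := stb_p1_abstract ι
    ((CuspForm.heckeAlgebra M₁ 2 ∅).val.toRingHom) Subtype.val_injective χ hker
  obtain ⟨f, hf, hfq⟩ := Fermat.Agent.S49.exists_normalized_eigenform v hv ψ hψ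
  have hint : ∀ a, IsIntegral ℤ ((ψ.comp ι) a) := fun a =>
    map_isIntegral_int ψ (Algebra.IsIntegral.isIntegral (ι a))
  obtain ⟨σ, hσ⟩ := stb_p1_exists_sigma (ψ.comp ι) χ hint hkψ
  obtain ⟨f₁, hf₁, hf₁q⟩ := stb_p1_conj_eigenform (σ : ℂ →+* ℂ) f hf
  have hout : ∀ ℓ : ℕ, ℓ.Prime → ℓ ∉ S → qCoeff ⇑f₁ ℓ = qCoeff ⇑g ℓ := by
    intro ℓ hℓ hℓS
    have hℓM : ¬ ℓ ∣ M := fun h => hℓS (hMS ℓ hℓ h)
    have hℓM₁ : ¬ ℓ ∣ M₁ := fun h => hℓM (h.trans hM₁)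
    obtain ⟨ℓ', rfl⟩ : ∃ ℓ' : Nat.Primes, (ℓ' : ℕ) = ℓ := ⟨⟨ℓ, hℓ⟩, rfl⟩
    have hX : (MvPolynomial.X ℓ' : HeckeAlg) ∈ A := by
      rw [hA]
      exact (MvPolynomial.X_mem_supported (R := ℤ)).mpr hℓS
    have h1 : ι ⟨MvPolynomial.X ℓ', hX⟩ =
        CuspForm.heckeAlgebra.T hℓ hℓM₁ (Set.notMem_empty _) := by
      rw [hι]
      exact CuspForm.heckeEvalForms_heckeGen_of_not_dvd (N := M₁) (k := 2) (ℓ := ℓ') hℓM₁
    have h2 := hσ ⟨MvPolynomial.X ℓ', hX⟩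
    rw [RingHom.comp_apply, h1, ← hfq (ℓ' : ℕ) hℓ hℓM₁, hχ] at h2
    rw [hf₁q]
    exact h2.trans (stb_p1_heckeValue_X g ℓ')
  have hall := stb_p1_smo hpkg hM₁ g hg f₁ hf₁ S hout
  exact hnew ⟨f₁, hf₁, hall⟩

end p1

end Fermat.Agent.STB

namespace Fermat.Agent.RT.Interp

open ModularCurve Fermat.Agent.ES Fermat.Agent.S31 Fermat.Agent.S30 ModularFormClass
  CongruenceSubgroup Polynomial

/-- **K8-GLUE at one `(p, M, g, q, S)` for an EIGENFORM `g`**: K8 from the geometric clause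
**(G)** there (fork of `rtint_k8_at`). -/
theorem rtk8p3n_k8_at {p : ℕ} [Fact p.Prime] {M : ℕ} [NeZero M] {g : CuspForm (Gamma0 M) 2}
    (hg : g.IsNormalizedEigenform) {q : ℕ} (hq : q.Prime) (hqp : q ≠ p) {S : Finset ℕ}
    (hpS : p ∈ S) (hMS : ∀ r : ℕ, r.Prime → r ∣ M → r ∈ S)
    (hgeo : ∀ ℓ₀ : Nat.Primes, (ℓ₀ : ℕ) ∉ S →
      heckeValue g (MvPolynomial.X ℓ₀ - MvPolynomial.C (((ℓ₀ : ℕ) : ℤ) + 1)) ≠ 0 →
      K8GeoAt p M g q S)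
    {A : Type} [CommRing A] [IsLocalRing A] [IsDomain A] [CharZero A] [IsNoetherianRing A]
    (hpA : (p : A) ∈ IsLocalRing.maximalIdeal A) (a : Nat.Primes → A)
    (hconj : ∀ t ∈ MvPolynomial.supported ℤ (outsideVars (↑S : Set ℕ)),
      heckeValue g t = 0 ↔ MvPolynomial.aeval a t = 0)
    (ρ : GaloisRepAdic A)
    (hfrob : ∀ ℓ : Nat.Primes, (ℓ : ℕ) ∉ S →
      ∀ 𝔄 : ValuationSubring (AlgebraicClosure ℚ), 𝔄.LiesOverPrime ℓ →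
        ∀ σ : AlgebraicClosure ℚ ≃ₐ[ℚ] AlgebraicClosure ℚ, 𝔄.IsFrobeniusAt σ ℓ →
          LinearMap.charpoly (ρ.ρ σ) = X ^ 2 - C (a ℓ) * X + C (((ℓ : ℕ) : A)))
    (habs : ρ.residual.IsAbsolutelyIrreducible) :
    ¬ ρ.IsUnramifiedAt q := by
  intro hunr
  have hp : p.Prime := Fact.out
  -- `g` is not Eisenstein
  obtain ⟨ℓ₀, hℓ₀S, hℓ₀⟩ := rtint_exists_nonEis hpS hpA a ρ hfrob habs
  have hℓ₀X : (MvPolynomial.X ℓ₀ - MvPolynomial.C (((ℓ₀ : ℕ) : ℤ) + 1) : HeckeAlg) ∈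
      MvPolynomial.supported ℤ (outsideVars (↑S : Set ℕ)) :=
    Subalgebra.sub_mem _ ((MvPolynomial.X_mem_supported (R := ℤ)).mpr
      (by exact_mod_cast hℓ₀S)) (Subalgebra.algebraMap_mem _ _)
  have hℓ₀g : heckeValue g (MvPolynomial.X ℓ₀ - MvPolynomial.C (((ℓ₀ : ℕ) : ℤ) + 1)) ≠ 0 := by
    intro h0
    have h1 := (hconj _ hℓ₀X).mp h0
    rw [map_sub, MvPolynomial.aeval_X, MvPolynomial.aeval_C, eq_intCast] at h1
    apply hℓ₀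
    have h2 : a ℓ₀ - (((ℓ₀ : ℕ) : A) + 1) = 0 := by
      rw [← h1]
      push_cast
      ring
    rw [h2]
    exact Ideal.zero_mem _
  obtain ⟨J, _, _, _, hJ, hF, 𝔄, φ, h𝔄, hφ, C₀, hC₀, hC₀g, hC₀x⟩ := hgeo ℓ₀ hℓ₀S hℓ₀g
  have hgoodN : ∀ r : ℕ, r.Prime → r ∉ S → ¬ r ∣ M := fun r hr hrS h => hrS (hMS r hr h)
  have hgood : ∀ r : ℕ, r.Prime → r ∉ S → ¬ r ∣ M * p := by
    intro r hr hrS h
    rcases (Nat.Prime.dvd_mul hr).mp h with h | h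
    · exact hrS (hMS r hr h)
    · rw [(Nat.prime_dvd_prime_iff_eq hr hp).mp h] at hrS
      exact hrS hpS
  -- the eigencharacter of `g`
  obtain ⟨chig, hchig, -⟩ := Fermat.Agent.S58.s58g_exists_chig g hg S hMS ⊤
    (fun _ _ _ _ => Subring.mem_top _)
  have hchigeq : ∀ t ∈ MvPolynomial.supported ℤ (outsideVars (↑S : Set ℕ)),
      chig (evalS M (↑S : Set ℕ) t) = heckeValue g t := fun t ht =>
    Fermat.Agent.STB.stb_p1_chig_eq (↑S : Set ℕ) (fun ℓ hℓ hℓS => hgoodN ℓ hℓ hℓS) chig hchig ht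
  -- the character `χ` with values `a`
  obtain ⟨χ, hχ⟩ := rtint_exists_chi (M := M) S hMS a (fun t ht h0 =>
    (hconj t ht).mp (by rw [← hchigeq t ht, h0, map_zero]))
  have hχT : ∀ (ℓ : ℕ) (hℓ : ℓ.Prime) (hℓM : ¬ ℓ ∣ M) (hℓS : ℓ ∉ (↑S : Set ℕ)),
      χ (CuspForm.heckeAlgebra.T hℓ hℓM hℓS) = a ⟨ℓ, hℓ⟩ := by
    intro ℓ hℓ hℓM hℓS
    rw [← chiHom_heckeGen S χ hℓ hℓM hℓS]
    exact (hχ (heckeGen ⟨ℓ, hℓ⟩) ((MvPolynomial.X_mem_supported (R := ℤ)).mpr hℓS)).trans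
      (MvPolynomial.aeval_X a _)
  have hfrob' : ∀ (ℓ : ℕ) (hℓ : ℓ.Prime) (hℓN : ¬ ℓ ∣ M) (hℓS : ℓ ∉ (↑S : Set ℕ)),
      ∀ 𝔅 : ValuationSubring (AlgebraicClosure ℚ), 𝔅.LiesOverPrime ℓ →
        ∀ σ : GQ, 𝔅.IsFrobeniusAt σ ℓ →
          LinearMap.charpoly (ρ.ρ σ) =
            X ^ 2 - C (χ (CuspForm.heckeAlgebra.T hℓ hℓN hℓS)) * X + C ((ℓ : A)) := by
    intro ℓ hℓ hℓN hℓS 𝔅 h𝔅 σ hσ
    rw [hχT ℓ hℓ hℓN hℓS]
    exact hfrob ⟨ℓ, hℓ⟩ hℓS 𝔅 h𝔅 σ hσ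
  -- (U′)
  obtain ⟨g₁, g₂, g₃, hU⟩ := Fermat.Agent.S32.exists_unit_trace ρ habs
  have hU' : LinearMap.trace A ρ.V (ρ.ρ (g₁ * g₂ * g₃)) ≠
      LinearMap.trace A ρ.V (ρ.ρ (g₂ * g₁ * g₃)) := by
    intro h
    rw [h, sub_self] at hU
    exact hU (Ideal.zero_mem _)
  -- (G)
  have hG : Fermat.Agent.RT.K8.GeoClause p J S χ q 𝔄 φ := by
    refine ⟨C₀, hC₀, ?_, hC₀x⟩
    rw [hχ C₀ hC₀]
    exact fun h => hC₀g ((hconj C₀ hC₀).mpr h)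
  obtain ⟨σ, hσ, γ, hne⟩ := Fermat.Agent.RT.K8.stmtK8Abs p M J S A χ hpA
    Fermat.Agent.Cheb.weakChebotarev_holds hJ hF hgoodN hgood
    (fun γ => LinearMap.trace A ρ.V (ρ.ρ γ))
    (fun γ k n h hGd hh hA =>
      rtint_trace_spec Fermat.Agent.Cheb.weakChebotarev_holds hJ hgoodN hgood hpA χ ρ hfrob'
        γ k n h hGd hh hA)
    ⟨g₁, g₂, g₃, hU'⟩ q hq hqp 𝔄 h𝔄 φ hφ hG
  apply hne
  show LinearMap.trace A ρ.V (ρ.ρ (γ * σ)) = LinearMap.trace A ρ.V (ρ.ρ γ)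
  rw [map_mul, hunr 𝔄 h𝔄 σ hσ, mul_one]

end Fermat.Agent.RT.Interp

namespace Fermat.Agent.RT.K8

open ModularCurve AlgebraicCurve Fermat.Agent.ES Fermat.Agent.ES.G2 Fermat.Agent.RIB.MP
  Fermat.Agent.UNIP Fermat.Agent.STB Fermat.Agent.S31 CongruenceSubgroup Polynomial

section Main

variable {M₁ q : ℕ} [NeZero M₁] [NeZero q] [NeZero (M₁ * q)]

/-- **(G) in the consumer shape at `(p, M₁ q, g, q, S)` for an eigenform `g` of level `M₁ q`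
which is new at `q`**, `p` ANY prime. -/
theorem rtk8p3n_geoAt {p : ℕ} [Fact p.Prime] {g : CuspForm (Gamma0 (M₁ * q)) 2}
    (hg : g.IsNormalizedEigenform) (hnew : ¬ CuspForm.GoodEigensystemOccursAt g M₁)
    (hq : q.Prime) (hqM : ¬ q ∣ M₁)
    (hDiv : rtk8p3_DivAt M₁ p) (hRed : rtk8p3_RedAt M₁ q p hq hqM)
    (hFrob : rtk8p3_FrobAt M₁ q p hq hqM)
    {S : Finset ℕ} (hpS : p ∈ S) (hMS : ∀ r : ℕ, r.Prime → r ∣ M₁ * q → r ∈ S)
    (ℓ₀ : Nat.Primes) (hℓ₀S : (ℓ₀ : ℕ) ∉ S)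
    (hℓ₀g : heckeValue g (MvPolynomial.X ℓ₀ - MvPolynomial.C (((ℓ₀ : ℕ) : ℤ) + 1)) ≠ 0) :
    Fermat.Agent.RT.Interp.K8GeoAt p (M₁ * q) g q S := by
  have hp : p.Prime := Fact.out
  have hp0 : p ≠ 0 := hp.ne_zero
  -- the Eichler–Shimura package
  obtain ⟨⟨μ, hμd⟩, hlev, hfrob, hunr'⟩ := Fermat.Agent.S35.stmtESIn_proved (M₁ * q) p hp
  have hm := multData_of_torsionUnifData hp0 hμd
  have hJd : letI := pDivModule (M₁ * q) p; letI := pDivGalois (M₁ * q) p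
      ESDataInf (M₁ * q) p (PDiv (M₁ * q) p) := hm.esDataInf hlev hfrob hunr'
  have hfaith : letI := pDivModule (M₁ * q) p; letI := pDivGalois (M₁ * q) p
      ESFaith (M₁ * q) p (PDiv (M₁ * q) p) := hm.esFaith hp0
  -- a place over `q` and a Frobenius element
  obtain ⟨A, φ, hA, hφ⟩ := Fermat.Agent.Common.exists_isFrobeniusAt q hq
  -- the Hecke polynomial `t₀`
  obtain ⟨t₀, ht₀, ht₀0, ht₀g⟩ := rtk8p3n_p1
    (fun N p _ hp => esPkgFaith_of_inputs Fermat.Agent.INJ.injAll_stmtINJAll hp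
      (torsionUnif_proved N p hp.pos))
    hg (Dvd.intro q rfl) hnew S hMS
  have hgood : ∀ r : Nat.Primes, (r : ℕ) ∉ S → ¬ (r : ℕ) ∣ M₁ * q * p := by
    intro r hrS h
    rcases (Nat.Prime.dvd_mul r.2).mp h with h | h
    · exact hrS (hMS r r.2 h)
    · rw [(Nat.prime_dvd_prime_iff_eq r.2 hp).mp h] at hrS
      exact hrS hpS
  have ht₀' : t₀ ∈ MvPolynomial.supported ℤ (goodPrimes (M₁ * q) p) :=
    MvPolynomial.supported_mono (fun r hr => hgood r hr) ht₀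
  have hE : (MvPolynomial.X ℓ₀ - MvPolynomial.C (((ℓ₀ : ℕ) : ℤ) + 1) : HeckeAlg) =
      heckeGen ℓ₀ - (((ℓ₀ : ℕ) : HeckeAlg) + 1) := by
    rw [map_add, map_one, map_natCast]
    rfl
  refine ⟨PDiv (M₁ * q) p, inferInstance, pDivModule (M₁ * q) p, pDivGalois (M₁ * q) p,
    hJd, hfaith, A, φ, hA, hφ,
    t₀ * (MvPolynomial.X ℓ₀ - MvPolynomial.C (((ℓ₀ : ℕ) : ℤ) + 1)), ?_, ?_, ?_⟩
  · refine Subalgebra.mul_mem _ ht₀ (Subalgebra.sub_mem _ ?_ ?_)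
    · exact (MvPolynomial.X_mem_supported (R := ℤ)).mpr hℓ₀S
    · exact Subalgebra.algebraMap_mem _ _
  · rw [stb_p1_heckeValue_mul]
    exact mul_ne_zero ht₀g hℓ₀g
  · intro x _ hI
    rw [hE]
    exact rtk8p3_geoJ_at hq hqM hp hDiv hRed hFrob A hA φ hφ t₀ ht₀' ht₀0 ℓ₀
      (hgood ℓ₀ hℓ₀S) x (fun σ hσ => congrArg Subtype.val (hI σ hσ))

end Main

/-- **(G) in the consumer shape at `(p, M, g, q, S)`**, `q ∥ M`, `g` an eigenform of level `M`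
which is new at `q`, `p` ANY prime. -/
theorem rtk8p3n_geoAt_dvd {p : ℕ} [Fact p.Prime] {M : ℕ} [NeZero M]
    {g : CuspForm (Gamma0 M) 2} (hg : g.IsNormalizedEigenform) {q : ℕ} (hq : q.Prime)
    (hqM : q ∣ M) (hq2M : ¬ q ^ 2 ∣ M) (hnew : ¬ CuspForm.GoodEigensystemOccursAt g (M / q))
    (hin : rtk8p3_InAt p M q)
    {S : Finset ℕ} (hpS : p ∈ S) (hMS : ∀ r : ℕ, r.Prime → r ∣ M → r ∈ S)
    (ℓ₀ : Nat.Primes) (hℓ₀S : (ℓ₀ : ℕ) ∉ S)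
    (hℓ₀g : heckeValue g (MvPolynomial.X ℓ₀ - MvPolynomial.C (((ℓ₀ : ℕ) : ℤ) + 1)) ≠ 0) :
    Fermat.Agent.RT.Interp.K8GeoAt p M g q S := by
  obtain ⟨M₁, hM₁⟩ := hqM
  have hMeq : M = M₁ * q := by rw [hM₁, mul_comm]
  subst hMeq
  have hM₁0 : M₁ ≠ 0 := fun h => NeZero.ne (M₁ * q) (by rw [h, zero_mul])
  haveI : NeZero M₁ := ⟨hM₁0⟩
  haveI : NeZero q := ⟨hq.ne_zero⟩
  have hqM' : ¬ q ∣ M₁ := by
    rintro ⟨c, rfl⟩
    exact hq2M ⟨c, by ring⟩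
  rw [Nat.mul_div_cancel M₁ hq.pos] at hnew
  obtain ⟨hDiv, hRed, hFrob⟩ := hin M₁ hq hqM' rfl
  exact rtk8p3n_geoAt hg hnew hq hqM' hDiv hRed hFrob hpS hMS ℓ₀ hℓ₀S hℓ₀g

/-- **K8 at level `M` for the eigenforms which are new at `q`** (the body): no representation
over a local Noetherian domain of characteristic zero and residue characteristic `p` attached
to a specialisation of the eigensystem of such a form is unramified at `q`. -/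
def rtk8p3n_K8NewAt (p q M : ℕ) [NeZero M] : Prop :=
  ∀ (g : CuspForm (Gamma0 M) 2), g.IsNormalizedEigenform →
    ¬ CuspForm.GoodEigensystemOccursAt g (M / q) →
    ∀ S : Finset ℕ, p ∈ S → (∀ r : ℕ, r.Prime → r ∣ M → r ∈ S) →
    ∀ (A : Type) [CommRing A] [IsLocalRing A] [IsDomain A] [CharZero A] [IsNoetherianRing A],
      (p : A) ∈ IsLocalRing.maximalIdeal A →
    ∀ (a : Nat.Primes → A),
      (∀ t ∈ MvPolynomial.supported ℤ (outsideVars (↑S : Set ℕ)),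
        heckeValue g t = 0 ↔ MvPolynomial.aeval a t = 0) →
    ∀ ρ : GaloisRepAdic A,
      (∀ ℓ : Nat.Primes, (ℓ : ℕ) ∉ S →
        ∀ 𝔄 : ValuationSubring (AlgebraicClosure ℚ), 𝔄.LiesOverPrime ℓ →
          ∀ σ : AlgebraicClosure ℚ ≃ₐ[ℚ] AlgebraicClosure ℚ, 𝔄.IsFrobeniusAt σ ℓ →
            LinearMap.charpoly (ρ.ρ σ) = X ^ 2 - C (a ℓ) * X + C (((ℓ : ℕ) : A))) →
      ρ.residual.IsAbsolutelyIrreducible →
      ¬ ρ.IsUnramifiedAt q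

/-- **K8 for `q`-new eigenforms of level `M` from the inputs of Mazur's principle at `M / q`.** -/
theorem rtk8p3n_k8NewAt_of_in {p q M : ℕ} [NeZero M] (hp : p.Prime) (hq : q.Prime)
    (hqp : q ≠ p) (hqM : q ∣ M) (hq2M : ¬ q ^ 2 ∣ M) (hin : rtk8p3_InAt p M q) :
    rtk8p3n_K8NewAt p q M := by
  intro g hg hnew S hpS hMS A _ _ _ _ _ hpA a hconj ρ hfrob habs
  haveI : Fact p.Prime := ⟨hp⟩
  exact Fermat.Agent.RT.Interp.rtk8p3n_k8_at hg hq hqp hpS hMS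
    (fun ℓ₀ hℓ₀S hℓ₀g => rtk8p3n_geoAt_dvd hg hq hqM hq2M hnew hin hpS hMS ℓ₀ hℓ₀S hℓ₀g)
    hpA a hconj ρ hfrob habs

/-- the inputs at every decomposition `M = M₁ q` from the inputs on a range -/
theorem rtk8p3n_inAt_of_on {R : ℕ → ℕ → ℕ → Prop} (h : rtk8p3_StmtInOn R) {p q M : ℕ}
    (hp : p.Prime) (hq : q.Prime) (hqp : q ≠ p) (hR : R p q (M / q)) : rtk8p3_InAt p M q := by
  intro M₁ _ _ _ hq' hqM' hM
  have hM₁ : M / q = M₁ := by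
    rw [hM]
    exact Nat.mul_div_cancel M₁ hq.pos
  rw [hM₁] at hR
  exact h p q M₁ hq' hqM' hp hqp.symm hR

/-- **K8 for `q`-new eigenforms, UNCONDITIONAL**: `p` odd (`p = 3` included), `q ≠ 2`, `q ∥ M`,
`M / q` even. -/
theorem rtk8p3n_k8NewAt_even {p q M : ℕ} [NeZero M] (hp : p.Prime) (hp2 : p ≠ 2)
    (hq : q.Prime) (hq2 : q ≠ 2) (hqp : q ≠ p) (hqM : q ∣ M) (hq2M : ¬ q ^ 2 ∣ M)
    (h2 : 2 ∣ M / q) : rtk8p3n_K8NewAt p q M :=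
  rtk8p3n_k8NewAt_of_in hp hq hqp hqM hq2M
    (rtk8p3n_inAt_of_on rtk8p3_stmtInOn_even hp hq hqp ⟨hp2, hq2, h2⟩)

/-- **K8 for `q`-new eigenforms, UNCONDITIONAL, the landed range**: `5 ≤ p`, `q ≠ 2`, `q ∥ M`,
`5 ≤ q ∨ (5 - q) ∣ M / q`. -/
theorem rtk8p3n_k8NewAt_old {p q M : ℕ} [NeZero M] (hp : p.Prime) (hp5 : 5 ≤ p)
    (hq : q.Prime) (hq2 : q ≠ 2) (hqp : q ≠ p) (hqM : q ∣ M) (hq2M : ¬ q ^ 2 ∣ M)
    (hE : 5 ≤ q ∨ (5 - q) ∣ M / q) : rtk8p3n_K8NewAt p q M :=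
  rtk8p3n_k8NewAt_of_in hp hq hqp hqM hq2M
    (rtk8p3n_inAt_of_on (rtk8p3_stmtInOn_old Fermat.Agent.RIB.MP.stmtFac) hp hq hqp
      ⟨hp5, hq2, hE⟩)

end Fermat.Agent.RT.K8

end
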