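import Fermat.Agent.RT.K8.Plan
import Fermat.Agent.RT.K8.Comm
import Fermat.Agent.S32.Setup

/-!
# RT-K8, part 3: the module `Z = J[pⁿ][𝔎]` and its quadratic relation

`𝔎 = {h Hecke polynomial outside S : χ(h) ∈ I}`, `Z = {x ∈ J[pⁿ] : 𝔎 x = 0}`.

* `kTors` : `Z` as a Hecke submodule of `J`;
* `kGal` : the Galois action on `Z` (needs that Galois and Hecke commute);
* `kHecke` : the Hecke action on `Z`;
* `kTors_quadRel` : the quadratic relation on `Z` for representatives `P g` of
  `g + χ_cyc(g) g⁻¹` on `J[pⁿ]`.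
-/

set_option autoImplicit false
set_option linter.unusedSectionVars false

namespace Fermat.Agent.RT.K8

open ModularCurve Fermat.Agent.ES Fermat.Agent.S31 Fermat.Agent.S32 Fermat.Agent.S30

variable (p : ℕ) {N : ℕ} [NeZero N] (J : Type) [AddCommGroup J] [Module HeckeAlg J]
  [DistribMulAction GQ J] (n : ℕ) (S : Finset ℕ) {𝒪' : Type} [CommRing 𝒪']
  (χ : CuspForm.heckeAlgebra N 2 (↑S : Set ℕ) →+* 𝒪') (I : Ideal 𝒪')

/-- `Z = J[pⁿ][𝔎]` as a Hecke submodule -/
noncomputable def kTors : Submodule HeckeAlg J where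
  carrier := {x | p ^ n • x = 0 ∧
    ∀ h ∈ MvPolynomial.supported ℤ (outsideVars (↑S : Set ℕ)), chiHom S χ h ∈ I → h • x = 0}
  zero_mem' := ⟨smul_zero _, fun _ _ _ => smul_zero _⟩
  add_mem' := by
    rintro x y ⟨hx, hx'⟩ ⟨hy, hy'⟩
    refine ⟨?_, fun h hh hI => ?_⟩
    · rw [smul_add, hx, hy, add_zero]
    · rw [smul_add, hx' h hh hI, hy' h hh hI, add_zero]
  smul_mem' := by
    rintro c x ⟨hx, hx'⟩
    refine ⟨?_, fun h hh hI => ?_⟩
    · show p ^ n • (c • x) = 0
      rw [smul_comm, hx, smul_zero]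
    · show h • (c • x) = 0
      rw [smul_comm, hx' h hh hI, smul_zero]

variable {p J n S χ I}

theorem mem_kTors {x : J} : x ∈ kTors p J n S χ I ↔ p ^ n • x = 0 ∧
    ∀ h ∈ MvPolynomial.supported ℤ (outsideVars (↑S : Set ℕ)), chiHom S χ h ∈ I → h • x = 0 :=
  Iff.rfl

theorem kTors_pow_smul (x : ↥(kTors p J n S χ I)) : p ^ n • x = 0 :=
  Subtype.ext x.2.1

theorem kTors_kill (x : ↥(kTors p J n S χ I)) {h : HeckeAlg}
    (hh : h ∈ MvPolynomial.supported ℤ (outsideVars (↑S : Set ℕ))) (hI : chiHom S χ h ∈ I) :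
    h • x = 0 :=
  Subtype.ext (x.2.2 h hh hI)

variable (p J n S χ I)

/-- the Galois action on `Z` -/
noncomputable def kGal (hcomm : ∀ (σ : GQ) (t : HeckeAlg) (x : J), σ • t • x = t • σ • x) :
    GQ →* Module.End ℤ ↥(kTors p J n S χ I) where
  toFun σ := AddMonoidHom.toIntLinearMap
    { toFun := fun x => ⟨σ • (x : J), torsion_smul n σ x.2.1, fun h hh hI => by
        rw [← hcomm, x.2.2 h hh hI, smul_zero]⟩
      map_zero' := Subtype.ext (smul_zero σ)
      map_add' := fun x y => Subtype.ext (smul_add σ (x : J) (y : J)) }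
  map_one' := by
    ext x
    exact one_smul GQ (x : J)
  map_mul' σ τ := by
    ext x
    exact mul_smul σ τ (x : J)

/-- the Hecke action on `Z` -/
noncomputable def kHecke : HeckeAlg →+* Module.End ℤ ↥(kTors p J n S χ I) :=
  Module.toModuleEnd ℤ ↥(kTors p J n S χ I)

variable {p J n S χ I}

@[simp] theorem kGal_apply (hcomm : ∀ (σ : GQ) (t : HeckeAlg) (x : J), σ • t • x = t • σ • x)
    (σ : GQ) (x : ↥(kTors p J n S χ I)) :
    ((kGal p J n S χ I hcomm σ x : ↥(kTors p J n S χ I)) : J) = σ • (x : J) := rfl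

@[simp] theorem kHecke_apply (h : HeckeAlg) (x : ↥(kTors p J n S χ I)) :
    ((kHecke p J n S χ I h x : ↥(kTors p J n S χ I)) : J) = h • (x : J) := rfl

/-- congruent integers are equal in the endomorphism ring of `Z` -/
theorem kTors_natCast_eq {a b : ℕ} (h : a ≡ b [MOD p ^ n]) :
    (a : Module.End ℤ ↥(kTors p J n S χ I)) = (b : Module.End ℤ ↥(kTors p J n S χ I)) := by
  ext x
  rw [Module.End.natCast_apply, Module.End.natCast_apply]
  exact congrArg Subtype.val (nsmul_eq_of_modEq h (kTors_pow_smul x))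

/-- Hecke polynomials with congruent `χ`-values act in the same way on `Z` -/
theorem kHecke_eq_of_sub_mem {h h' : HeckeAlg}
    (hh : h ∈ MvPolynomial.supported ℤ (outsideVars (↑S : Set ℕ)))
    (hh' : h' ∈ MvPolynomial.supported ℤ (outsideVars (↑S : Set ℕ)))
    (hI : chiHom S χ h - chiHom S χ h' ∈ I) :
    kHecke p J n S χ I h = kHecke p J n S χ I h' := by
  rw [← sub_eq_zero, ← map_sub]
  ext x
  rw [LinearMap.zero_apply, ZeroMemClass.coe_zero, kHecke_apply]
  exact x.2.2 _ (sub_mem hh hh') (by rwa [map_sub])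

/-- **the quadratic relation on `Z`** -/
theorem kTors_quadRel [Fact p.Prime]
    (hcomm : ∀ (σ : GQ) (t : HeckeAlg) (x : J), σ • t • x = t • σ • x)
    (P : GQ → HeckeAlg) (hP : ∀ g, Approx p J n g (P g)) :
    QuadRel (kGal p J n S χ I hcomm)
      (fun g => ((cycE p n g : ℕ) : Module.End ℤ ↥(kTors p J n S χ I)))
      (fun g => kHecke p J n S χ I (P g)) := by
  refine ⟨?_, ?_, ?_, ?_, ?_⟩
  · show ((cycE p n 1 : ℕ) : Module.End ℤ ↥(kTors p J n S χ I)) = 1
    rw [kTors_natCast_eq (cycE_one p n), Nat.cast_one]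
  · intro g h
    show ((cycE p n (g * h) : ℕ) : Module.End ℤ ↥(kTors p J n S χ I)) = _
    rw [kTors_natCast_eq (cycE_mul p n g h), Nat.cast_mul]
  · intro g e
    exact Nat.cast_comm _ _
  · intro g
    ext x
    have := hP g (x : J) x.2.1
    simp only [kHecke_apply, LinearMap.add_apply, Submodule.coe_add, kGal_apply,
      Module.End.mul_apply, Module.End.natCast_apply, Submodule.coe_smul_of_tower]
    exact this.symm
  · intro g h
    ext x
    simp only [Module.End.mul_apply, kHecke_apply, kGal_apply]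
    exact (hcomm h _ _).symm

end Fermat.Agent.RT.K8
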