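import Fermat.Agent.RT.K8.Abs
import Fermat.Agent.S35.Final
import Fermat.Agent.S32.KeyAlg
import Fermat.Agent.S31.Reduction

/-!
# RT-K8: from the abstract theorem to representations

`rtk8_of_rep` : `A` a noetherian local domain of characteristic `0` with `p ∈ 𝔪_A`,
`χ : heckeAlgebra M 2 S →+* A`, `ρ : GaloisRepAdic A` with
`charpoly ρ(Frob_ℓ) = X² − χ(T_ℓ) X + ℓ` (`ℓ ∉ S`) and absolutely irreducible residual
representation.  If the geometric clause **(G)** holds for `PDiv M p` at a place `𝔄 ∣ q`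
(`q ≠ p`), then `ρ` is ramified at `q`.

Proof: `t := tr ρ` satisfies the specification of the trace function of S30 (weak Chebotarev,
adic continuity of `ρ`, Lucas sequences, faithfulness); apply `stmtK8Abs`.
-/

set_option autoImplicit false
set_option linter.style.haveILetI false

open Polynomial

noncomputable section

namespace Fermat.Agent.RT.K8

open ModularCurve Fermat.Agent.ES Fermat.Agent.S31 Fermat.Agent.S32 Fermat.Agent.S30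
open Fermat.Agent.S35 (StmtESIn)

/-- the trace of `ρ` satisfies the specification of the trace function of S30 -/
theorem rtk8_trace_spec {p N : ℕ} [Fact p.Prime] [NeZero N]
    {J : Type} [AddCommGroup J] [Module HeckeAlg J] [DistribMulAction GQ J]
    (S : Finset ℕ) {A : Type} [CommRing A] [IsLocalRing A]
    (χ : CuspForm.heckeAlgebra N 2 (↑S : Set ℕ) →+* A)
    (hpA : (p : A) ∈ IsLocalRing.maximalIdeal A)
    (hcheb : Cheb.WeakChebotarev) (hJ : ESDataInf N p J)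
    (hgoodN : ∀ r : ℕ, r.Prime → r ∉ S → ¬ r ∣ N)
    (hgood : ∀ r : ℕ, r.Prime → r ∉ S → ¬ r ∣ N * p)
    (ρ : GaloisRepAdic A)
    (hρ : ∀ (ℓ : ℕ) (hℓ : ℓ.Prime) (hℓN : ¬ ℓ ∣ N) (hℓS : ℓ ∉ (↑S : Set ℕ)),
      ∀ 𝔄 : ValuationSubring (AlgebraicClosure ℚ), 𝔄.LiesOverPrime ℓ →
        ∀ σ : AlgebraicClosure ℚ ≃ₐ[ℚ] AlgebraicClosure ℚ, 𝔄.IsFrobeniusAt σ ℓ →
          LinearMap.charpoly (ρ.ρ σ) =
            X ^ 2 - C (χ (CuspForm.heckeAlgebra.T hℓ hℓN hℓS)) * X + C ((ℓ : A)))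
    (g : GQ) (k n : ℕ) (h : HeckeAlg) (hG : Good p J S χ k n)
    (hh : h ∈ MvPolynomial.supported ℤ (outsideVars (↑S : Set ℕ))) (H : Approx p J n g h) :
    LinearMap.trace A ρ.V (ρ.ρ g) - chiHom S χ h ∈ IsLocalRing.maximalIdeal A ^ k := by
  classical
  have hp : p.Prime := Fact.out
  obtain ⟨E, hEfin, hE⟩ := exists_common_field hJ n
  obtain ⟨L, hLfin, hL⟩ := ρ.isAdicContinuous k
  have hM0 : p ^ n ≠ 0 := pow_ne_zero n hp.ne_zero
  have : NeZero ((p ^ n : ℕ) : AlgebraicClosure ℚ) := ⟨Nat.cast_ne_zero.mpr hM0⟩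
  obtain ⟨ζ, hζ⟩ := HasEnoughRootsOfUnity.exists_primitiveRoot (AlgebraicClosure ℚ) (p ^ n)
  have hζfin : FiniteDimensional ℚ (IntermediateField.adjoin ℚ {ζ}) :=
    IntermediateField.adjoin.finiteDimensional ((hζ.isIntegral (Nat.pos_of_ne_zero hM0)).tower_top)
  obtain ⟨F, hFfin, hFgal, hEF, hLF, hζF⟩ :=
    exists_galois_hull E L (IntermediateField.adjoin ℚ {ζ})
  have hζF' : ζ ∈ F := hζF (IntermediateField.mem_adjoin_simple_self ℚ ζ)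
  have hF : ∀ σ : GQ, (∀ a ∈ F, σ a = a) → ∀ x : J, p ^ n • x = 0 → σ • x = x :=
    fun σ h => hE σ fun a ha => h a (hEF ha)
  obtain ⟨ℓ, 𝔅, τ, m, hℓ, hℓS, h𝔅, hτ, hg⟩ := hcheb F S g
  have hℓS' : ℓ ∉ (↑S : Set ℕ) := hℓS
  have hℓNp := hgood ℓ hℓ hℓS
  have hℓN := hgoodN ℓ hℓ hℓS
  set P : HeckeAlg := lucasS (heckeGen ⟨ℓ, hℓ⟩) (ℓ : HeckeAlg) m with hP
  have hPsupp : P ∈ MvPolynomial.supported ℤ (outsideVars (↑S : Set ℕ)) := by
    refine lucasS_mem_subalgebra _ ?_ (natCast_mem _ ℓ) m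
    exact (MvPolynomial.X_mem_supported (R := ℤ)).mpr hℓS'
  have hPapprox : Approx p J n g P := by
    intro x hx
    have h1 := lucas_galois hJ n F hF hℓ hℓNp h𝔅 hτ m g hg hx
    have hζ1 : ζ ^ (p ^ n) = 1 := hζ.pow_eq_one
    have h2 : (τ ^ m) ζ = ζ ^ (ℓ ^ m) :=
      frob_pow_rootOfUnity 𝔅 (natCast_pow_not_mem_nonunits 𝔅 hp hℓ (ne_of_not_dvd_mul hℓNp) h𝔅 n)
        hM0 hτ hζ1 m
    have h3 : g ζ = ζ ^ (ℓ ^ m) := by rw [← hg ζ hζF', h2]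
    have he : cycE p n g ≡ ℓ ^ m [MOD p ^ n] := cycE_of_apply p n g _ hζ h3
    rw [nsmul_eq_of_modEq he (torsion_smul n g⁻¹ hx)]
    exact h1
  have h1 := trace_congr_of_agree ρ k L hL (τ ^ m) g fun a ha => hg a (hLF ha)
  rw [map_pow, trace_pow_eq_lucasS ρ.finrank_eq (ρ.ρ τ) _ _ (hρ ℓ hℓ hℓN hℓS' 𝔅 h𝔅 τ hτ) m] at h1
  have h2 : chiHom S χ P = lucasS (χ (CuspForm.heckeAlgebra.T hℓ hℓN hℓS')) (ℓ : A) m := by
    rw [hP, lucasS_map (chiHom S χ), chiHom_heckeGen S χ hℓ hℓN hℓS', map_natCast]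
  have h3 := span_pow_le (IsLocalRing.maximalIdeal A) hpA k
    (approx_unique hG hG hPsupp hh hPapprox H)
  rw [h2] at h3
  have e : LinearMap.trace A ρ.V (ρ.ρ g) - chiHom S χ h =
      (LinearMap.trace A ρ.V (ρ.ρ g) - lucasS (χ (CuspForm.heckeAlgebra.T hℓ hℓN hℓS')) (ℓ : A) m)
        + (lucasS (χ (CuspForm.heckeAlgebra.T hℓ hℓN hℓS')) (ℓ : A) m - chiHom S χ h) := by
    ring
  rw [e]
  exact add_mem h1 h3

/-- **K8 for a representation with character `χ`**, from the geometric clause. -/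
theorem rtk8_of_rep (hcheb : Cheb.WeakChebotarev) (hES : StmtESIn)
    {p M : ℕ} [Fact p.Prime] [NeZero M] (S : Finset ℕ) (hpS : p ∈ S)
    (hMS : ∀ r : ℕ, r.Prime → r ∣ M → r ∈ S)
    (A : Type) [CommRing A] [IsLocalRing A] [IsDomain A] [CharZero A] [IsNoetherianRing A]
    (hpA : (p : A) ∈ IsLocalRing.maximalIdeal A)
    (χ : CuspForm.heckeAlgebra M 2 (↑S : Set ℕ) →+* A)
    (ρ : GaloisRepAdic A)
    (hρ : ∀ (ℓ : ℕ) (hℓ : ℓ.Prime) (hℓN : ¬ ℓ ∣ M) (hℓS : ℓ ∉ (↑S : Set ℕ)),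
      ∀ 𝔄 : ValuationSubring (AlgebraicClosure ℚ), 𝔄.LiesOverPrime ℓ →
        ∀ σ : AlgebraicClosure ℚ ≃ₐ[ℚ] AlgebraicClosure ℚ, 𝔄.IsFrobeniusAt σ ℓ →
          LinearMap.charpoly (ρ.ρ σ) =
            X ^ 2 - C (χ (CuspForm.heckeAlgebra.T hℓ hℓN hℓS)) * X + C ((ℓ : A)))
    (habs : ρ.residual.IsAbsolutelyIrreducible)
    {q : ℕ} (hq : q.Prime) (hqp : q ≠ p)
    (𝔄 : ValuationSubring (AlgebraicClosure ℚ)) (h𝔄 : 𝔄.LiesOverPrime q)
    (φ : GQ) (hφ : 𝔄.IsFrobeniusAt φ q)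
    (hG : letI := pDivModule M p; letI := pDivGalois M p; GeoClause p (PDiv M p) S χ q 𝔄 φ) :
    ¬ ρ.IsUnramifiedAt q := by
  letI := pDivModule M p
  letI := pDivGalois M p
  intro hunr
  have hp : p.Prime := Fact.out
  have hp0 : p ≠ 0 := hp.ne_zero
  obtain ⟨⟨μ, hμd⟩, hlev, hfrob, hunr'⟩ := hES M p hp
  have hm := multData_of_torsionUnifData hp0 hμd
  have hJ : ESDataInf M p (PDiv M p) := hm.esDataInf hlev hfrob hunr'
  have hfaith : ESFaith M p (PDiv M p) := hm.esFaith hp0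
  have hgoodN : ∀ r : ℕ, r.Prime → r ∉ S → ¬ r ∣ M := fun r hr hrS h => hrS (hMS r hr h)
  have hgood : ∀ r : ℕ, r.Prime → r ∉ S → ¬ r ∣ M * p := by
    intro r hr hrS h
    rcases (Nat.Prime.dvd_mul hr).mp h with h | h
    · exact hrS (hMS r hr h)
    · have : r = p := (Nat.prime_dvd_prime_iff_eq hr hp).mp h
      exact hrS (this ▸ hpS)
  obtain ⟨g₁, g₂, g₃, hU⟩ := exists_unit_trace ρ habs
  have hU' : LinearMap.trace A ρ.V (ρ.ρ (g₁ * g₂ * g₃)) ≠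
      LinearMap.trace A ρ.V (ρ.ρ (g₂ * g₁ * g₃)) := by
    intro h
    apply hU
    rw [h, sub_self]
    exact zero_mem _
  obtain ⟨σ, hσ, g, hne⟩ := stmtK8Abs p M (PDiv M p) S A χ hpA hcheb hJ hfaith hgoodN hgood
    (fun g => LinearMap.trace A ρ.V (ρ.ρ g))
    (fun g k n h hGd hh H =>
      rtk8_trace_spec S χ hpA hcheb hJ hgoodN hgood ρ hρ g k n h hGd hh H)
    ⟨g₁, g₂, g₃, hU'⟩ q hq hqp 𝔄 h𝔄 φ hφ hG
  apply hne
  show LinearMap.trace A ρ.V (ρ.ρ (g * σ)) = LinearMap.trace A ρ.V (ρ.ρ g)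
  rw [map_mul, hunr 𝔄 h𝔄 σ hσ, mul_one]

end Fermat.Agent.RT.K8
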