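import Fermat.Agent.S30.PseudoChar

/-!
# RT-K8 (new at `q ∥ M` ⇒ ramified at `q`): the interface

* `GeoClause p J S χ q A φ` : the geometric clause **(G)**.  There is a Hecke polynomial `C₀` in the
  variables outside `S` with `χ(C₀) ≠ 0` such that, for every `p`-power torsion point `x` of `J`
  fixed by the inertia group of `A ∣ q`,   `φ² (C₀ x) = q² (C₀ x)`.
* `StmtK8Abs` : the abstract theorem.  For a `G_ℚ × Hecke`-module `J` carrying the faithful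
  `p`-adic Eichler–Shimura package, a function `t : G_ℚ → 𝒪'` with the specification of the trace
  function of S30 (`𝒪'` a noetherian local domain of characteristic `0` with `p ∈ 𝔪`), which is
  not "reducible" (`t (g₁ g₂ g₃) ≠ t (g₂ g₁ g₃)` for some `g₁ g₂ g₃`), a prime `q ≠ p`, a place
  `A ∣ q` with a Frobenius `φ`, and **(G)**:

    some `σ` in the inertia group of `A` and some `g` have `t (g σ) ≠ t g`.

Proved in `Fermat/Agent/RT/K8/Abs.lean` (`Fermat.Agent.RT.K8.stmtK8Abs`); see NOTES/RT-K8.md.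
-/

set_option autoImplicit false

namespace Fermat.Agent.RT.K8

open ModularCurve Fermat.Agent.ES Fermat.Agent.S31 Fermat.Agent.S30

/-- the geometric clause **(G)** -/
def GeoClause (p : ℕ) {N : ℕ} [NeZero N] (J : Type) [AddCommGroup J] [Module HeckeAlg J]
    [DistribMulAction GQ J] (S : Finset ℕ) {𝒪' : Type} [CommRing 𝒪']
    (χ : CuspForm.heckeAlgebra N 2 (↑S : Set ℕ) →+* 𝒪') (q : ℕ)
    (A : ValuationSubring (AlgebraicClosure ℚ)) (φ : GQ) : Prop :=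
  ∃ C₀ ∈ MvPolynomial.supported ℤ (outsideVars (↑S : Set ℕ)), chiHom S χ C₀ ≠ 0 ∧
    ∀ x : J, IsPPowerTorsion p x → (∀ σ ∈ A.inertiaSubgroupIn ℚ, σ • x = x) →
      (φ * φ) • (C₀ • x) = (q ^ 2) • (C₀ • x)

/-- **K8**, abstract form. -/
def StmtK8Abs : Prop :=
  ∀ (p N : ℕ) [Fact p.Prime] [NeZero N]
    (J : Type) [AddCommGroup J] [Module HeckeAlg J] [DistribMulAction GQ J]
    (S : Finset ℕ)
    (𝒪' : Type) [CommRing 𝒪'] [IsDomain 𝒪'] [IsLocalRing 𝒪'] [IsNoetherianRing 𝒪'] [CharZero 𝒪']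
    (χ : CuspForm.heckeAlgebra N 2 (↑S : Set ℕ) →+* 𝒪'),
    (p : 𝒪') ∈ IsLocalRing.maximalIdeal 𝒪' →
    Cheb.WeakChebotarev → ESDataInf N p J → ESFaith N p J →
    (∀ r : ℕ, r.Prime → r ∉ S → ¬ r ∣ N) →
    (∀ r : ℕ, r.Prime → r ∉ S → ¬ r ∣ N * p) →
    ∀ t : GQ → 𝒪',
    (∀ (g : GQ) (k n : ℕ) (h : HeckeAlg), Good p J S χ k n →
      h ∈ MvPolynomial.supported ℤ (outsideVars (↑S : Set ℕ)) → Approx p J n g h →
        t g - chiHom S χ h ∈ IsLocalRing.maximalIdeal 𝒪' ^ k) →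
    (∃ g₁ g₂ g₃ : GQ, t (g₁ * g₂ * g₃) ≠ t (g₂ * g₁ * g₃)) →
    ∀ q : ℕ, q.Prime → q ≠ p →
    ∀ A : ValuationSubring (AlgebraicClosure ℚ), A.LiesOverPrime q →
    ∀ φ : GQ, A.IsFrobeniusAt φ q →
    GeoClause p J S χ q A φ →
    ∃ σ ∈ A.inertiaSubgroupIn ℚ, ∃ g : GQ, t (g * σ) ≠ t g

end Fermat.Agent.RT.K8
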